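import Fermat.Agent.S14.Cross.ClassAux
import Fermat.Agent.S14.FrobSplit

/-!
# S14, piece CROSS: the group-theoretic assembly of Artin reciprocity

`K ⊆ L` abelian of prime degree `p`, everywhere unramified.  `qClass K L I` is the class of the
ideal `I` of `K` modulo the norm classes.

* `IsGoodField K L F n` : for the nonzero ideals `𝔄` of the auxiliary field `F ⊇ K` prime to `n`,
  `artin K L (N 𝔄) = 1` implies that the class of `N 𝔄` is a norm class.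
* `qClass_eq_pow_of_isGoodField` : the graph property of a good field.
* `pair_step` : two good fields with a common overfield not containing `L` give the same graph.
* `artin_span_singleton_eq_one_of_pairs` : reciprocity from the pair property and the first
  inequality.
-/

set_option autoImplicit false

open NumberField
open scoped nonZeroDivisors

namespace Fermat.Agent.S14.Cross

section QClass

variable (K L : Type*) [Field K] [NumberField K] [Field L] [NumberField L] [Algebra K L]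

/-- The class of an ideal modulo the norm classes. -/
noncomputable def qClass (I : Ideal (𝓞 K)) : ClassGroup (𝓞 K) ⧸ normClasses K L :=
  QuotientGroup.mk (idealClass I)

variable {K}

theorem qClass_mul {I J : Ideal (𝓞 K)} (hI : I ≠ ⊥) (hJ : J ≠ ⊥) :
    qClass K L (I * J) = qClass K L I * qClass K L J := by
  unfold qClass
  rw [idealClass_mul hI hJ]
  rfl

theorem qClass_one : qClass K L (1 : Ideal (𝓞 K)) = 1 := by
  unfold qClass
  rw [idealClass_one]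
  rfl

theorem qClass_pow {I : Ideal (𝓞 K)} (hI : I ≠ ⊥) (n : ℕ) :
    qClass K L (I ^ n) = qClass K L I ^ n := by
  unfold qClass
  rw [idealClass_pow hI]
  rfl

theorem qClass_eq_one_iff (I : Ideal (𝓞 K)) :
    qClass K L I = 1 ↔ idealClass I ∈ normClasses K L := by
  unfold qClass
  exact QuotientGroup.eq_one_iff _

theorem qClass_span_singleton {x : 𝓞 K} (hx : x ≠ 0) : qClass K L (Ideal.span {x}) = 1 := by
  rw [qClass_eq_one_iff, idealClass_span_singleton hx]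
  exact one_mem _

/-- The class group modulo the norm classes is killed by the degree. -/
theorem qClass_pow_finrank {I : Ideal (𝓞 K)} (hI : I ≠ ⊥) :
    qClass K L I ^ Module.finrank K L = 1 := by
  rw [← qClass_pow L hI, qClass_eq_one_iff, mem_normClasses_iff]
  have hmap : I.map (algebraMap (𝓞 K) (𝓞 L)) ≠ ⊥ := by
    rw [Ne, Ideal.map_eq_bot_iff_of_injective (FaithfulSMul.algebraMap_injective (𝓞 K) (𝓞 L))]
    exact hI
  refine ⟨I.map (algebraMap (𝓞 K) (𝓞 L)), hmap, ?_⟩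
  rw [Ideal.relNorm_algebraMap, IsFractionRing.finrank_eq (𝓞 K) K (𝓞 L) L]

end QClass

section Good

variable (K L : Type*) [Field K] [NumberField K] [Field L] [NumberField L] [Algebra K L]
  [IsAbelianGalois K L]

/-- The auxiliary field `F ⊇ K` is *good* (away from `n`): for the nonzero ideals `𝔄` of `F` prime
to `n`, triviality of the Artin symbol of `N_{F/K} 𝔄` in `L/K` implies that the class of
`N_{F/K} 𝔄` is a norm class from `L`. -/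
def IsGoodField (F : Type*) [Field F] [NumberField F] [Algebra K F] (n : ℕ) : Prop :=
  ∀ 𝔄 : Ideal (𝓞 F), 𝔄 ≠ ⊥ → IsCoprime 𝔄 (Ideal.span {(n : 𝓞 F)}) →
    artin K L (Ideal.relNorm (𝓞 K) 𝔄) = 1 →
      idealClass (Ideal.relNorm (𝓞 K) 𝔄) ∈ normClasses K L

variable {K L}

/-- The graph property of a good field. -/
theorem qClass_eq_pow_of_isGoodField {p : ℕ} (hdeg : Module.finrank K L = p)
    {F : Type*} [Field F] [NumberField F] [Algebra K F] {n : ℕ} (hF : IsGoodField K L F n)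
    {𝔄 𝔄' : Ideal (𝓞 F)} (h𝔄 : 𝔄 ≠ ⊥) (h𝔄' : 𝔄' ≠ ⊥)
    (hc : IsCoprime 𝔄 (Ideal.span {(n : 𝓞 F)})) (hc' : IsCoprime 𝔄' (Ideal.span {(n : 𝓞 F)}))
    (k : ℕ)
    (h : artin K L (Ideal.relNorm (𝓞 K) 𝔄') = artin K L (Ideal.relNorm (𝓞 K) 𝔄) ^ k) :
    qClass K L (Ideal.relNorm (𝓞 K) 𝔄') = qClass K L (Ideal.relNorm (𝓞 K) 𝔄) ^ k := by
  have hcard : Nat.card Gal(L/K) = p := by
    rw [IsGalois.card_aut_eq_finrank, hdeg]
  have hN : Ideal.relNorm (𝓞 K) 𝔄 ≠ ⊥ := relNorm_ne_bot K F h𝔄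
  have hN' : Ideal.relNorm (𝓞 K) 𝔄' ≠ ⊥ := relNorm_ne_bot K F h𝔄'
  -- the auxiliary ideal
  set e := (p - 1) * k with he
  have h0 : 𝔄' * 𝔄 ^ e ≠ ⊥ := mul_ne_zero h𝔄' (pow_ne_zero _ h𝔄)
  have hcop : IsCoprime (𝔄' * 𝔄 ^ e) (Ideal.span {(n : 𝓞 F)}) :=
    IsCoprime.mul_left hc' (IsCoprime.pow_left hc)
  have hppos : 0 < p := by
    rw [← hdeg]; exact Module.finrank_pos
  have hart : artin K L (Ideal.relNorm (𝓞 K) (𝔄' * 𝔄 ^ e)) = 1 := by
    have hexp : k + (p - 1) * k = p * k := by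
      obtain ⟨q, rfl⟩ : ∃ q, p = q + 1 := ⟨p - 1, by omega⟩
      simp only [Nat.add_sub_cancel]; ring
    rw [map_mul, map_pow, artin_mul K L hN' (pow_ne_zero _ hN), artin_pow, h, ← pow_add, he,
      hexp, pow_mul, ← hcard, pow_card_eq_one', one_pow]
  have hmem := hF _ h0 hcop hart
  rw [← qClass_eq_one_iff, map_mul, map_pow, qClass_mul L hN' (pow_ne_zero _ hN),
    qClass_pow L hN] at hmem
  have hexp : qClass K L (Ideal.relNorm (𝓞 K) 𝔄) ^ p = 1 := hdeg ▸ qClass_pow_finrank L hN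
  -- conclude
  have : qClass K L (Ideal.relNorm (𝓞 K) 𝔄') =
      (qClass K L (Ideal.relNorm (𝓞 K) 𝔄) ^ e)⁻¹ := eq_inv_of_mul_eq_one_left hmem
  have hexp' : (p - 1) * k + k = p * k := by
    obtain ⟨q, rfl⟩ : ∃ q, p = q + 1 := ⟨p - 1, by omega⟩
    simp only [Nat.add_sub_cancel]; ring
  rw [this, inv_eq_iff_mul_eq_one, ← pow_add, he, hexp', pow_mul, hexp, one_pow]

/-- exponents may be compared modulo `p` on elements killed by `p` -/
theorem pow_eq_pow_of_modEq {G : Type*} [Group G] {c : G} {p n m : ℕ} (hc : c ^ p = 1)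
    (h : n ≡ m [MOD p]) : c ^ n = c ^ m := by
  rw [pow_eq_pow_iff_modEq]
  exact h.of_dvd (orderOf_dvd_of_pow_eq_one hc)

/-- **Pair step**: two good fields `F₁`, `F₂` with a common overfield `F₁₂` carrying an ideal whose
norm has nontrivial Artin symbol have the same graph. -/
theorem pair_step {p : ℕ} (hp : p.Prime) (hdeg : Module.finrank K L = p)
    (F₁ F₂ F₁₂ : Type*) [Field F₁] [NumberField F₁] [Field F₂] [NumberField F₂]
    [Field F₁₂] [NumberField F₁₂]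
    [Algebra K F₁] [Algebra K F₂] [Algebra K F₁₂] [Algebra F₁ F₁₂] [Algebra F₂ F₁₂]
    [IsScalarTower K F₁ F₁₂] [IsScalarTower K F₂ F₁₂] {n : ℕ}
    (h₁ : IsGoodField K L F₁ n) (h₂ : IsGoodField K L F₂ n)
    {𝔭₁ 𝔭₂ : Ideal (𝓞 K)}
    {𝔓₁ : Ideal (𝓞 F₁)} (h𝔓₁ : 𝔓₁ ≠ ⊥) (hc₁ : IsCoprime 𝔓₁ (Ideal.span {(n : 𝓞 F₁)}))
    (hN₁ : Ideal.relNorm (𝓞 K) 𝔓₁ = 𝔭₁)
    {𝔓₂ : Ideal (𝓞 F₂)} (h𝔓₂ : 𝔓₂ ≠ ⊥) (hc₂ : IsCoprime 𝔓₂ (Ideal.span {(n : 𝓞 F₂)}))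
    (hN₂ : Ideal.relNorm (𝓞 K) 𝔓₂ = 𝔭₂)
    {𝔅 : Ideal (𝓞 F₁₂)} (h𝔅0 : 𝔅 ≠ ⊥)
    (hcB₁ : IsCoprime (Ideal.relNorm (𝓞 F₁) 𝔅) (Ideal.span {(n : 𝓞 F₁)}))
    (hcB₂ : IsCoprime (Ideal.relNorm (𝓞 F₂) 𝔅) (Ideal.span {(n : 𝓞 F₂)}))
    (h𝔅 : artin K L (Ideal.relNorm (𝓞 K) 𝔅) ≠ 1)
    (d : ℕ) (hd : artin K L 𝔭₂ = artin K L 𝔭₁ ^ d) :
    qClass K L 𝔭₂ = qClass K L 𝔭₁ ^ d := by
  haveI : Fact p.Prime := ⟨hp⟩
  have hcard : Nat.card Gal(L/K) = p := by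
    rw [IsGalois.card_aut_eq_finrank, hdeg]
  set s := artin K L (Ideal.relNorm (𝓞 K) 𝔅) with hs
  have hs_ord : orderOf s = p := by
    have h1 : orderOf s ∣ p := by
      rw [← hcard]; exact orderOf_dvd_natCard s
    rcases (Nat.dvd_prime hp).mp h1 with h | h
    · exact absurd (orderOf_eq_one_iff.mp h) h𝔅
    · exact h
  obtain ⟨k₁, hk₁⟩ := mem_powers_of_prime_card hcard h𝔅 (g' := artin K L 𝔭₁)
  obtain ⟨k₂, hk₂⟩ := mem_powers_of_prime_card hcard h𝔅 (g' := artin K L 𝔭₂)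
  have hB₁ : Ideal.relNorm (𝓞 F₁) 𝔅 ≠ ⊥ := relNorm_ne_bot F₁ F₁₂ h𝔅0
  have hB₂ : Ideal.relNorm (𝓞 F₂) 𝔅 ≠ ⊥ := relNorm_ne_bot F₂ F₁₂ h𝔅0
  have e₁ := qClass_eq_pow_of_isGoodField hdeg h₁ hB₁ h𝔓₁ hcB₁ hc₁ k₁
    (by rw [hN₁, Ideal.relNorm_relNorm]; exact hk₁.symm)
  have e₂ := qClass_eq_pow_of_isGoodField hdeg h₂ hB₂ h𝔓₂ hcB₂ hc₂ k₂
    (by rw [hN₂, Ideal.relNorm_relNorm]; exact hk₂.symm)
  rw [hN₁, Ideal.relNorm_relNorm] at e₁
  rw [hN₂, Ideal.relNorm_relNorm] at e₂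
  have hNB : Ideal.relNorm (𝓞 K) 𝔅 ≠ ⊥ := relNorm_ne_bot K F₁₂ h𝔅0
  have hexp : qClass K L (Ideal.relNorm (𝓞 K) 𝔅) ^ p = 1 := hdeg ▸ qClass_pow_finrank L hNB
  have hmod : k₂ ≡ k₁ * d [MOD p] := by
    rw [← hs_ord, ← pow_eq_pow_iff_modEq, pow_mul]
    have hk₁' : s ^ k₁ = artin K L 𝔭₁ := hk₁
    have hk₂' : s ^ k₂ = artin K L 𝔭₂ := hk₂
    rw [hk₁', hk₂', hd]
  rw [e₁, e₂, ← pow_mul]
  exact pow_eq_pow_of_modEq hexp hmod

/-- A prime with trivial Frobenius is a norm. -/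
theorem qClass_eq_one_of_frob_eq_one (hunr : IsUnramifiedEverywhere K L) (𝔭 : Ideal (𝓞 K))
    [𝔭.IsPrime] (h0 : 𝔭 ≠ ⊥) (h : frob K L 𝔭 = 1) : qClass K L 𝔭 = 1 := by
  have hQ0 : primeOver K L 𝔭 ≠ ⊥ := primeOver_ne_bot K L 𝔭 h0
  have hin : (primeOver K L 𝔭).inertiaDeg (𝓞 K) = 1 :=
    (frob_eq_one_iff_inertiaDeg K L 𝔭 h0 (primeOver K L 𝔭) (hunr _ inferInstance hQ0)).mp h
  have : (primeOver K L 𝔭).IsMaximal := Ring.DimensionLEOne.maximalOfPrime hQ0 inferInstance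
  have : 𝔭.IsMaximal := Ring.DimensionLEOne.maximalOfPrime h0 inferInstance
  have hN : Ideal.relNorm (𝓞 K) (primeOver K L 𝔭) = 𝔭 := by
    rw [Ideal.relNorm_eq_pow_of_isMaximal (primeOver K L 𝔭) 𝔭, hin, pow_one]
  rw [qClass_eq_one_iff, mem_normClasses_iff]
  exact ⟨primeOver K L 𝔭, hQ0, by rw [hN]⟩

open scoped IsMulCommutative in
/-- **Assembly**: Artin reciprocity for principal ideals from the pair property and the first
inequality. -/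
theorem artin_span_singleton_eq_one_of_pairs {p : ℕ} (hp : p.Prime)
    (hdeg : Module.finrank K L = p) (hunr : IsUnramifiedEverywhere K L)
    (hfirst : normClasses K L ≠ ⊤)
    (hpair : ∀ 𝔭₁ 𝔭₂ : Ideal (𝓞 K), 𝔭₁.IsPrime → 𝔭₁ ≠ ⊥ → 𝔭₂.IsPrime → 𝔭₂ ≠ ⊥ →
      frob K L 𝔭₁ ≠ 1 → frob K L 𝔭₂ ≠ 1 → ∀ d : ℕ, frob K L 𝔭₂ = frob K L 𝔭₁ ^ d →
      qClass K L 𝔭₂ = qClass K L 𝔭₁ ^ d)
    (β : 𝓞 K) (hβ : β ≠ 0) : artin K L (Ideal.span {β}) = 1 := by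
  haveI : Fact p.Prime := ⟨hp⟩
  have hcard : Nat.card Gal(L/K) = p := by
    rw [IsGalois.card_aut_eq_finrank, hdeg]
  by_cases hall : ∀ 𝔭 : Ideal (𝓞 K), 𝔭.IsPrime → 𝔭 ≠ ⊥ → frob K L 𝔭 = 1
  · -- all Frobenius elements are trivial
    unfold artin
    refine Multiset.prod_eq_one fun g hg => ?_
    obtain ⟨𝔭, h𝔭, rfl⟩ := Multiset.mem_map.mp hg
    have hprime : Prime 𝔭 := UniqueFactorizationMonoid.prime_of_normalized_factor 𝔭 h𝔭
    exact hall 𝔭 (Ideal.isPrime_of_prime hprime) hprime.ne_zero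
  · push Not at hall
    obtain ⟨𝔭₀, h𝔭₀, h𝔭₀0, hg₀⟩ := hall
    set g₀ := frob K L 𝔭₀ with hg₀def
    set c₀ := qClass K L 𝔭₀ with hc₀def
    have hg₀p : g₀ ^ p = 1 := by rw [← hcard]; exact pow_card_eq_one'
    have hc₀p : c₀ ^ p = 1 := hdeg ▸ qClass_pow_finrank L h𝔭₀0
    -- key claim
    have key : ∀ 𝔞 : Ideal (𝓞 K), 𝔞 ≠ ⊥ →
        ∃ d : ℕ, artin K L 𝔞 = g₀ ^ d ∧ qClass K L 𝔞 = c₀ ^ d := by
      intro 𝔞
      induction 𝔞 using UniqueFactorizationMonoid.induction_on_prime with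
      | h₁ => intro h; exact absurd rfl h
      | h₂ u hu =>
        intro _
        rw [Ideal.isUnit_iff] at hu
        refine ⟨0, ?_, ?_⟩
        · rw [hu, ← Ideal.one_eq_top, artin_one, pow_zero]
        · rw [hu, ← Ideal.one_eq_top, qClass_one, pow_zero]
      | h₃ 𝔞 𝔭 h𝔞 h𝔭 ih =>
        intro _
        have h𝔭' : 𝔭.IsPrime := Ideal.isPrime_of_prime h𝔭
        have h𝔭0 : 𝔭 ≠ ⊥ := h𝔭.ne_zero
        obtain ⟨d₁, hd₁, hd₁'⟩ := ih h𝔞
        have hp_claim : ∃ d : ℕ, frob K L 𝔭 = g₀ ^ d ∧ qClass K L 𝔭 = c₀ ^ d := by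
          by_cases h1 : frob K L 𝔭 = 1
          · exact ⟨0, by rw [h1, pow_zero],
              by rw [pow_zero]; exact qClass_eq_one_of_frob_eq_one hunr 𝔭 h𝔭0 h1⟩
          · obtain ⟨d, hd⟩ := mem_powers_of_prime_card hcard hg₀ (g' := frob K L 𝔭)
            have hd' : g₀ ^ d = frob K L 𝔭 := hd
            exact ⟨d, hd'.symm, hpair 𝔭₀ 𝔭 h𝔭₀ h𝔭₀0 h𝔭' h𝔭0 hg₀ h1 d hd'.symm⟩
        obtain ⟨d₂, hd₂, hd₂'⟩ := hp_claim
        refine ⟨d₂ + d₁, ?_, ?_⟩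
        · rw [artin_mul K L h𝔭0 h𝔞, artin_of_isPrime K L 𝔭 h𝔭0, hd₁, hd₂, pow_add]
        · rw [qClass_mul L h𝔭0 h𝔞, hd₁', hd₂', pow_add]
    -- `c₀` is nontrivial by the first inequality
    have hc₀ : c₀ ≠ 1 := by
      intro hc
      apply hfirst
      rw [eq_top_iff]
      intro c _
      obtain ⟨I, rfl⟩ := ClassGroup.mk0_surjective c
      obtain ⟨d, -, hd⟩ := key (I : Ideal (𝓞 K)) (nonZeroDivisors.coe_ne_zero I)
      rw [hc, one_pow, qClass_eq_one_iff, idealClass_coe] at hd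
      exact hd
    have hc₀_ord : orderOf c₀ = p := by
      rcases (Nat.dvd_prime hp).mp (orderOf_dvd_of_pow_eq_one hc₀p) with h | h
      · exact absurd (orderOf_eq_one_iff.mp h) hc₀
      · exact h
    have hβ' : Ideal.span {β} ≠ (⊥ : Ideal (𝓞 K)) := by
      rwa [Ne, Ideal.span_singleton_eq_bot]
    obtain ⟨d, hd, hd'⟩ := key _ hβ'
    rw [qClass_span_singleton L hβ] at hd'
    have hpd : p ∣ d := by
      rw [← hc₀_ord]; exact orderOf_dvd_of_pow_eq_one hd'.symm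
    obtain ⟨e, rfl⟩ := hpd
    rw [hd, pow_mul, hg₀p, one_pow]

end Good

end Fermat.Agent.S14.Cross
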