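import Mathlib
import Fermat.Agent.S14.Defs

/-!
# S14, piece CROSS: auxiliary lemmas on ideal classes and norm classes

* `idealClass I` : the class of the ideal `I` (and `1` for `I = ⊥`);
* `mem_normClasses_iff` : the norm classes are exactly the classes of norms of nonzero ideals;
* `idealClass_relNorm_mem_normClasses` : push-down of norm classes along a square of fields.
-/

set_option autoImplicit false

open NumberField
open scoped nonZeroDivisors

namespace Fermat.Agent.S14.Cross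

section Dedekind

variable {R : Type*} [CommRing R] [IsDedekindDomain R]

open Classical in
/-- The class of an ideal (`1` for the zero ideal). -/
noncomputable def idealClass (I : Ideal R) : ClassGroup R :=
  if h : I ≠ ⊥ then ClassGroup.mk0 ⟨I, mem_nonZeroDivisors_of_ne_zero h⟩ else 1

theorem idealClass_of_ne_bot {I : Ideal R} (h : I ≠ ⊥) :
    idealClass I = ClassGroup.mk0 ⟨I, mem_nonZeroDivisors_of_ne_zero h⟩ := by
  unfold idealClass
  rw [dif_pos h]

theorem idealClass_coe (I : (Ideal R)⁰) : idealClass (I : Ideal R) = ClassGroup.mk0 I := by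
  have h : (I : Ideal R) ≠ ⊥ := nonZeroDivisors.coe_ne_zero I
  rw [idealClass_of_ne_bot h]

theorem idealClass_mul {I J : Ideal R} (hI : I ≠ ⊥) (hJ : J ≠ ⊥) :
    idealClass (I * J) = idealClass I * idealClass J := by
  have hIJ : I * J ≠ ⊥ := mul_ne_zero hI hJ
  rw [idealClass_of_ne_bot hI, idealClass_of_ne_bot hJ, idealClass_of_ne_bot hIJ, ← map_mul]
  rfl

theorem idealClass_one : idealClass (1 : Ideal R) = 1 := by
  rw [idealClass_of_ne_bot (one_ne_zero)]
  exact map_one _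

theorem idealClass_pow {I : Ideal R} (hI : I ≠ ⊥) (n : ℕ) :
    idealClass (I ^ n) = idealClass I ^ n := by
  induction n with
  | zero => simpa using idealClass_one
  | succ n ih =>
    rw [pow_succ, pow_succ, idealClass_mul (pow_ne_zero n hI) hI, ih]

theorem idealClass_span_singleton {x : R} (hx : x ≠ 0) : idealClass (Ideal.span {x}) = 1 := by
  have h : Ideal.span {x} ≠ (⊥ : Ideal R) := by
    rwa [Ne, Ideal.span_singleton_eq_bot]
  rw [idealClass_of_ne_bot h, ClassGroup.mk0_eq_one_iff]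
  exact ⟨⟨x, rfl⟩⟩

/-- two nonzero ideals with `x • I = y • J` have the same class -/
theorem idealClass_eq_of_span_mul_eq {I J : Ideal R} (hI : I ≠ ⊥) (hJ : J ≠ ⊥) {x y : R}
    (hx : x ≠ 0) (hy : y ≠ 0) (h : Ideal.span {x} * I = Ideal.span {y} * J) :
    idealClass I = idealClass J := by
  have hx' : Ideal.span {x} ≠ (⊥ : Ideal R) := by rwa [Ne, Ideal.span_singleton_eq_bot]
  have hy' : Ideal.span {y} ≠ (⊥ : Ideal R) := by rwa [Ne, Ideal.span_singleton_eq_bot]
  have := congrArg idealClass h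
  rwa [idealClass_mul hx' hI, idealClass_mul hy' hJ, idealClass_span_singleton hx,
    idealClass_span_singleton hy, one_mul, one_mul] at this

theorem exists_span_mul_eq_of_idealClass_eq {I J : Ideal R} (hI : I ≠ ⊥) (hJ : J ≠ ⊥)
    (h : idealClass I = idealClass J) :
    ∃ x y : R, x ≠ 0 ∧ y ≠ 0 ∧ Ideal.span {x} * I = Ideal.span {y} * J := by
  rw [idealClass_of_ne_bot hI, idealClass_of_ne_bot hJ, ClassGroup.mk0_eq_mk0_iff] at h
  obtain ⟨x, y, hx, hy, h⟩ := h
  exact ⟨x, y, hx, hy, h⟩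

end Dedekind

section NormClasses

variable (F M : Type*) [Field F] [NumberField F] [Field M] [NumberField M] [Algebra F M]

theorem relNorm_ne_bot {𝔄 : Ideal (𝓞 M)} (h : 𝔄 ≠ ⊥) : Ideal.relNorm (𝓞 F) 𝔄 ≠ ⊥ := by
  rwa [Ne, Ideal.relNorm_eq_bot_iff]

/-- The norm classes are exactly the classes of the norms of the nonzero ideals. -/
theorem mem_normClasses_iff (c : ClassGroup (𝓞 F)) :
    c ∈ normClasses F M ↔
      ∃ 𝔄 : Ideal (𝓞 M), 𝔄 ≠ ⊥ ∧ c = idealClass (Ideal.relNorm (𝓞 F) 𝔄) := by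
  constructor
  · intro hc
    have hpow : ∀ (𝔄 : Ideal (𝓞 M)), 𝔄 ≠ ⊥ → ∀ n : ℕ,
        idealClass (Ideal.relNorm (𝓞 F) 𝔄) ^ n = idealClass (Ideal.relNorm (𝓞 F) (𝔄 ^ n)) := by
      intro 𝔄 h𝔄 n
      rw [map_pow, idealClass_pow (relNorm_ne_bot F M h𝔄)]
    unfold normClasses at hc
    induction hc using Subgroup.closure_induction with
    | mem c hc =>
      obtain ⟨𝔄, h𝔄, rfl⟩ := hc
      exact ⟨𝔄, h𝔄, (idealClass_of_ne_bot (relNorm_ne_bot F M h𝔄)).symm⟩
    | one =>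
      refine ⟨⊤, top_ne_bot, ?_⟩
      rw [Ideal.relNorm_top, ← Ideal.one_eq_top, idealClass_one]
    | mul c d _ _ hc hd =>
      obtain ⟨𝔄, h𝔄, rfl⟩ := hc
      obtain ⟨𝔅, h𝔅, rfl⟩ := hd
      refine ⟨𝔄 * 𝔅, mul_ne_zero h𝔄 h𝔅, ?_⟩
      rw [map_mul, idealClass_mul (relNorm_ne_bot F M h𝔄) (relNorm_ne_bot F M h𝔅)]
    | inv c _ hc =>
      obtain ⟨𝔄, h𝔄, rfl⟩ := hc
      refine ⟨𝔄 ^ (Fintype.card (ClassGroup (𝓞 F)) - 1), pow_ne_zero _ h𝔄, ?_⟩
      rw [← hpow 𝔄 h𝔄, inv_eq_iff_mul_eq_one, ← pow_succ',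
        Nat.sub_add_cancel Fintype.card_pos, pow_card_eq_one]
  · rintro ⟨𝔄, h𝔄, rfl⟩
    exact Subgroup.subset_closure
      ⟨𝔄, h𝔄, idealClass_of_ne_bot (relNorm_ne_bot F M h𝔄)⟩

end NormClasses

section Push

variable (K L F M : Type*) [Field K] [NumberField K] [Field L] [NumberField L]
  [Field F] [NumberField F] [Field M] [NumberField M]
  [Algebra K L] [Algebra K F] [Algebra F M] [Algebra K M] [IsScalarTower K F M]
  [Algebra L M] [IsScalarTower K L M]

/-- **Push-down of norm classes**: in a square `K ⊆ F ⊆ M`, `K ⊆ L ⊆ M`, the norm from `F` to `K`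
maps the norm classes of `M/F` into the norm classes of `L/K`. -/
theorem idealClass_relNorm_mem_normClasses (𝔄 : Ideal (𝓞 F)) (h𝔄 : 𝔄 ≠ ⊥)
    (h : idealClass 𝔄 ∈ normClasses F M) :
    idealClass (Ideal.relNorm (𝓞 K) 𝔄) ∈ normClasses K L := by
  obtain ⟨ℭ, hℭ, hc⟩ := (mem_normClasses_iff F M _).mp h
  obtain ⟨x, y, hx, hy, hxy⟩ :=
    exists_span_mul_eq_of_idealClass_eq h𝔄 (relNorm_ne_bot F M hℭ) hc
  have h1 := congrArg (Ideal.relNorm (𝓞 K)) hxy
  rw [map_mul, map_mul, Ideal.relNorm_singleton, Ideal.relNorm_singleton,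
    Ideal.relNorm_relNorm, ← Ideal.relNorm_relNorm (𝓞 K) (𝓞 L) ℭ] at h1
  have hx' : Algebra.intNorm (𝓞 K) (𝓞 F) x ≠ 0 := by
    rwa [Ne, Algebra.intNorm_eq_zero]
  have hy' : Algebra.intNorm (𝓞 K) (𝓞 F) y ≠ 0 := by
    rwa [Ne, Algebra.intNorm_eq_zero]
  rw [idealClass_eq_of_span_mul_eq (relNorm_ne_bot K F h𝔄)
    (relNorm_ne_bot K L (relNorm_ne_bot L M hℭ)) hx' hy' h1]
  exact (mem_normClasses_iff K L _).mpr ⟨_, relNorm_ne_bot L M hℭ, rfl⟩

end Push

end Fermat.Agent.S14.Cross
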