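import Fermat.Agent.S14.Cross.Field

/-!
# S14, piece CROSS (R5, group theory): the decomposition-type subgroups of `Gal(Ω/K)`

`K ⊆ L ⊆ Ω` number fields, `Ω/K` abelian, `ζ ∈ Ω` a primitive `m`-th root of unity.

* `crossHom L hζ : Gal(Ω/K) →* Gal(L/K) × (ZMod m)ˣ` : restriction to `L` and the cyclotomic
  character modulo `m`;
* `crossGroup L hζ s a` : the preimage of the cyclic subgroup generated by `(s, a)`;
* `crossField L hζ s a` : its fixed field.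
-/

set_option autoImplicit false
set_option linter.style.haveILetI false
set_option linter.unusedSectionVars false

open NumberField IntermediateField

namespace Fermat.Agent.S14.Cross

section CrossGroup

variable {K : Type*} (L : Type*) {Ω : Type*} [Field K] [NumberField K] [Field L] [NumberField L]
  [Field Ω] [NumberField Ω]
  [Algebra K L] [Algebra K Ω] [Algebra L Ω] [IsScalarTower K L Ω] [IsAbelianGalois K L]
  [IsAbelianGalois K Ω]

/-- Characterisation of the cyclotomic character. -/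
theorem autToPow_eq_iff {m : ℕ} [NeZero m] {ζ : Ω} (hζ : IsPrimitiveRoot ζ m) (g : Gal(Ω/K))
    (u : (ZMod m)ˣ) : hζ.autToPow K g = u ↔ g ζ = ζ ^ (u : ZMod m).val := by
  constructor
  · rintro rfl
    exact (hζ.autToPow_spec K g).symm
  · intro h
    have h1 := hζ.autToPow_spec K g
    rw [h] at h1
    have h2 := hζ.pow_inj (ZMod.val_lt _) (ZMod.val_lt _) h1
    exact Units.ext (ZMod.val_injective m h2)

/-- Restriction to `L` together with the cyclotomic character modulo `m`. -/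
noncomputable def crossHom {m : ℕ} [NeZero m] {ζ : Ω} (hζ : IsPrimitiveRoot ζ m) :
    Gal(Ω/K) →* Gal(L/K) × (ZMod m)ˣ :=
  (AlgEquiv.restrictNormalHom L).prod (hζ.autToPow K)

theorem crossHom_apply {m : ℕ} [NeZero m] {ζ : Ω} (hζ : IsPrimitiveRoot ζ m) (g : Gal(Ω/K)) :
    crossHom L hζ g = (AlgEquiv.restrictNormalHom L g, hζ.autToPow K g) := rfl

/-- The preimage in `Gal(Ω/K)` of the cyclic subgroup of `Gal(L/K) × (ZMod m)ˣ` generated by
`(s, a)`. -/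
noncomputable def crossGroup {m : ℕ} [NeZero m] {ζ : Ω} (hζ : IsPrimitiveRoot ζ m)
    (s : Gal(L/K)) (a : (ZMod m)ˣ) : Subgroup Gal(Ω/K) :=
  (Subgroup.zpowers ((s, a) : Gal(L/K) × (ZMod m)ˣ)).comap (crossHom L hζ)

theorem mem_crossGroup_iff {m : ℕ} [NeZero m] {ζ : Ω} (hζ : IsPrimitiveRoot ζ m)
    (s : Gal(L/K)) (a : (ZMod m)ˣ) (h : Gal(Ω/K)) :
    h ∈ crossGroup L hζ s a ↔ ∃ j : ℕ, AlgEquiv.restrictNormalHom L h = s ^ j ∧
      h ζ = ζ ^ ((a : ZMod m) ^ j).val := by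
  unfold crossGroup
  rw [Subgroup.mem_comap, ← mem_powers_iff_mem_zpowers, Submonoid.mem_powers_iff]
  constructor
  · rintro ⟨j, hj⟩
    rw [crossHom_apply, Prod.pow_mk, Prod.mk.injEq] at hj
    refine ⟨j, hj.1.symm, ?_⟩
    have := (autToPow_eq_iff hζ h (a ^ j)).mp hj.2.symm
    rwa [Units.val_pow_eq_pow_val] at this
  · rintro ⟨j, hj1, hj2⟩
    refine ⟨j, ?_⟩
    rw [crossHom_apply, Prod.pow_mk, Prod.mk.injEq]
    refine ⟨hj1.symm, ((autToPow_eq_iff hζ h (a ^ j)).mpr ?_).symm⟩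
    rwa [Units.val_pow_eq_pow_val]

/-- **P1**: an element with restriction `s` and cyclotomic character `a` lies in the group. -/
theorem mem_crossGroup_of_eq {m : ℕ} [NeZero m] {ζ : Ω} (hζ : IsPrimitiveRoot ζ m)
    {s : Gal(L/K)} {a : (ZMod m)ˣ} {g : Gal(Ω/K)} (hL : AlgEquiv.restrictNormalHom L g = s)
    (hg : g ζ = ζ ^ (a : ZMod m).val) : g ∈ crossGroup L hζ s a := by
  rw [mem_crossGroup_iff]
  exact ⟨1, by rw [hL, pow_one], by rw [pow_one]; exact hg⟩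

/-- If `η ^ e = η` for a primitive `r`-th root of unity `η` (in a domain), then `e ≡ 1 mod r`. -/
theorem modEq_one_of_pow_eq_self {R : Type*} [CommRing R] [IsDomain R] {η : R} {r e : ℕ}
    (hr : r ≠ 0) (hη : IsPrimitiveRoot η r) (h : η ^ e = η) : e ≡ 1 [MOD r] := by
  have hη0 : η ≠ 0 := (hη.isUnit hr).ne_zero
  rcases Nat.eq_zero_or_pos e with rfl | he
  · rw [pow_zero] at h
    rw [← h] at hη
    have h1 : r = 1 := IsPrimitiveRoot.one_left_iff.mp hη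
    rw [h1]
    exact Nat.modEq_one
  · obtain ⟨e', rfl⟩ : ∃ e', e = e' + 1 := ⟨e - 1, by omega⟩
    rw [pow_succ] at h
    have h1 : η ^ e' = 1 := by
      have : η ^ e' * η = 1 * η := by rw [h, one_mul]
      exact mul_right_cancel₀ hη0 this
    have h2 : r ∣ e' := (hη.pow_eq_one_iff_dvd e').mp h1
    exact (Nat.modEq_iff_dvd' (by omega)).mpr (by simpa using h2) |>.symm

/-- **P2**: if `a ≡ A mod m`, `r ∣ m`, every `j` with `A ^ j ≡ 1 mod r` is divisible by `p` and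
`s ^ p = 1`, then an element of the group fixing a primitive `r`-th root of unity restricts
trivially to `L`. -/
theorem restrictNormalHom_eq_one_of_mem_crossGroup {m : ℕ} [NeZero m] {ζ : Ω}
    (hζ : IsPrimitiveRoot ζ m) {s : Gal(L/K)} {a : (ZMod m)ˣ} {A p r : ℕ}
    (ha : (a : ZMod m) = (A : ZMod m)) (hs : s ^ p = 1) (hr : r ∣ m)
    (hord : ∀ j : ℕ, A ^ j ≡ 1 [MOD r] → p ∣ j) {ζ' : Ω} (hζ' : IsPrimitiveRoot ζ' r)
    {h : Gal(Ω/K)} (hh : h ∈ crossGroup L hζ s a) (hfix : h ζ' = ζ') :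
    AlgEquiv.restrictNormalHom L h = 1 := by
  obtain ⟨j, hj1, hj2⟩ := (mem_crossGroup_iff L hζ s a h).mp hh
  have hζ'm : ζ' ^ m = 1 := by
    obtain ⟨c, rfl⟩ := hr
    rw [pow_mul, hζ'.pow_eq_one, one_pow]
  obtain ⟨i, -, rfl⟩ := hζ.eq_pow_of_pow_eq_one hζ'm
  have hr0 : r ≠ 0 := by
    rintro rfl
    exact NeZero.ne m (Nat.eq_zero_of_zero_dvd hr)
  have h0 : (ζ ^ i) ^ ((a : ZMod m) ^ j).val = ζ ^ i := by
    rw [← pow_mul, mul_comm, pow_mul, ← hj2, ← map_pow]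
    exact hfix
  have h1 := modEq_one_of_pow_eq_self hr0 hζ' h0
  rw [ha, ← Nat.cast_pow, ZMod.val_natCast] at h1
  have h2 : A ^ j ≡ 1 [MOD r] := by
    have h3 : A ^ j % m ≡ A ^ j [MOD r] := (Nat.mod_modEq (A ^ j) m).of_dvd hr
    exact h3.symm.trans h1
  obtain ⟨c, rfl⟩ := hord j h2
  rw [hj1, pow_mul, hs, one_pow]

/-- The fixed field of `crossGroup`. -/
noncomputable def crossField {m : ℕ} [NeZero m] {ζ : Ω} (hζ : IsPrimitiveRoot ζ m)
    (s : Gal(L/K)) (a : (ZMod m)ˣ) : IntermediateField K Ω :=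
  IntermediateField.fixedField (crossGroup L hζ s a)

theorem fixingSubgroup_crossField {m : ℕ} [NeZero m] {ζ : Ω} (hζ : IsPrimitiveRoot ζ m)
    (s : Gal(L/K)) (a : (ZMod m)ˣ) :
    (crossField L hζ s a).fixingSubgroup = crossGroup L hζ s a :=
  IntermediateField.fixingSubgroup_fixedField _

/-- **P1'**: membership in the fixing subgroup of the cross field. -/
theorem mem_fixingSubgroup_crossField_of_eq {m : ℕ} [NeZero m] {ζ : Ω} (hζ : IsPrimitiveRoot ζ m)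
    {s : Gal(L/K)} {a : (ZMod m)ˣ} {g : Gal(Ω/K)} (hL : AlgEquiv.restrictNormalHom L g = s)
    (hg : g ζ = ζ ^ (a : ZMod m).val) : g ∈ (crossField L hζ s a).fixingSubgroup := by
  rw [fixingSubgroup_crossField]
  exact mem_crossGroup_of_eq L hζ hL hg

/-- **P2'**: the TAME containment `F·L ⊆ F(ζ')` for the cross field `F`. -/
theorem compL_crossField_le_adjoin {m : ℕ} [NeZero m] {ζ : Ω}
    (hζ : IsPrimitiveRoot ζ m) {s : Gal(L/K)} {a : (ZMod m)ˣ} {A p r : ℕ}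
    (ha : (a : ZMod m) = (A : ZMod m)) (hs : s ^ p = 1) (hr : r ∣ m)
    (hord : ∀ j : ℕ, A ^ j ≡ 1 [MOD r] → p ∣ j) {ζ' : Ω} (hζ' : IsPrimitiveRoot ζ' r) :
    compL L (crossField L hζ s a) ≤ (crossField L hζ s a)⟮ζ'⟯ := by
  refine compL_le_adjoin L _ ζ' fun h hh hfix => ?_
  rw [fixingSubgroup_crossField] at hh
  exact restrictNormalHom_eq_one_of_mem_crossGroup L hζ ha hs hr hord hζ' hh hfix

/-- **P3**: two cross fields have a common element of their fixing subgroups acting nontrivially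
on `L`, provided `Gal(Ω/K) → Gal(L/K) × (ZMod m₁)ˣ × (ZMod m₂)ˣ` is surjective. -/
theorem exists_mem_fixingSubgroup_sup_crossField {m₁ m₂ : ℕ} [NeZero m₁] [NeZero m₂] {ζ₁ ζ₂ : Ω}
    (hζ₁ : IsPrimitiveRoot ζ₁ m₁) (hζ₂ : IsPrimitiveRoot ζ₂ m₂) {s₁ s₂ : Gal(L/K)}
    (a₁ : (ZMod m₁)ˣ) (a₂ : (ZMod m₂)ˣ) {e : ℕ} (he : s₁ = s₂ ^ e) (hs₁ : s₁ ≠ 1)
    (hsurj : ∀ (s : Gal(L/K)) (u₁ : (ZMod m₁)ˣ) (u₂ : (ZMod m₂)ˣ), ∃ g : Gal(Ω/K),
      AlgEquiv.restrictNormalHom L g = s ∧ g ζ₁ = ζ₁ ^ (u₁ : ZMod m₁).val ∧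
        g ζ₂ = ζ₂ ^ (u₂ : ZMod m₂).val) :
    ∃ h : Gal(Ω/K), h ∈ (crossField L hζ₁ s₁ a₁ ⊔ crossField L hζ₂ s₂ a₂).fixingSubgroup ∧
      AlgEquiv.restrictNormalHom L h ≠ 1 := by
  obtain ⟨g, hg0, hg1, hg2⟩ := hsurj s₁ a₁ (a₂ ^ e)
  refine ⟨g, ?_, by rw [hg0]; exact hs₁⟩
  rw [IntermediateField.fixingSubgroup_sup, Subgroup.mem_inf]
  refine ⟨mem_fixingSubgroup_crossField_of_eq L hζ₁ hg0 hg1, ?_⟩
  rw [fixingSubgroup_crossField, mem_crossGroup_iff]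
  refine ⟨e, by rw [hg0, he], ?_⟩
  rw [hg2, Units.val_pow_eq_pow_val]

end CrossGroup

section Arith

/-- **P4a**: from the conclusion of Artin's lemma: if the order of `a` modulo `r` is `p ^ k` with
`1 ≤ k`, then every `j` with `a ^ j ≡ 1 mod r` is divisible by `p`. -/
theorem dvd_of_pow_modEq_one {a r p k : ℕ} (hk : 1 ≤ k) (hord : orderOf (a : ZMod r) = p ^ k)
    (j : ℕ) (hj : a ^ j ≡ 1 [MOD r]) : p ∣ j := by
  have h1 : (a : ZMod r) ^ j = 1 := by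
    have := (ZMod.natCast_eq_natCast_iff (a ^ j) 1 r).mpr hj
    rwa [Nat.cast_pow, Nat.cast_one] at this
  have h2 : p ^ k ∣ j := hord ▸ orderOf_dvd_of_pow_eq_one h1
  exact (dvd_pow_self p (by omega)).trans h2

/-- **P4b**: a rational prime not dividing the absolute norm of a prime ideal does not lie in
it. -/
theorem natCast_notMem_of_not_dvd_absNorm {K : Type*} [Field K] [NumberField K]
    (𝔭 : Ideal (𝓞 K)) [𝔭.IsPrime] (h0 : 𝔭 ≠ ⊥) {r : ℕ} (hr : r.Prime)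
    (h : ¬ r ∣ Ideal.absNorm 𝔭) : (r : 𝓞 K) ∉ 𝔭 := by
  intro hmem
  apply h
  haveI : NeZero 𝔭 := ⟨h0⟩
  have hℓ : (Ideal.absNorm (Ideal.under ℤ 𝔭)).Prime := Nat.absNorm_under_prime 𝔭
  have h1 : ((Ideal.absNorm (Ideal.under ℤ 𝔭) : ℕ) : ℤ) ∣ (r : ℤ) := by
    rw [← Int.cast_mem_ideal_iff (I := 𝔭)]
    simpa using hmem
  have h2 : Ideal.absNorm (Ideal.under ℤ 𝔭) ∣ r := Int.natCast_dvd_natCast.mp h1
  have h3 : Ideal.absNorm (Ideal.under ℤ 𝔭) = r := (Nat.prime_dvd_prime_iff_eq hℓ hr).mp h2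
  rw [← h3]
  exact Int.absNorm_under_dvd_absNorm 𝔭

/-- **P4c**: CRT for units. -/
theorem exists_unit_crt₂ {m₁ m₂ : ℕ} [NeZero m₁] [NeZero m₂] (hm : Nat.Coprime m₁ m₂)
    (u₁ : (ZMod m₁)ˣ) (u₂ : (ZMod m₂)ˣ) :
    ∃ u : (ZMod (m₁ * m₂))ˣ, (u : ZMod (m₁ * m₂)).val % m₁ = (u₁ : ZMod m₁).val ∧
      (u : ZMod (m₁ * m₂)).val % m₂ = (u₂ : ZMod m₂).val := by
  obtain ⟨A, hA1, hA2⟩ := Nat.chineseRemainder hm (u₁ : ZMod m₁).val (u₂ : ZMod m₂).val
  have hc1 : Nat.Coprime A m₁ := by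
    have := hA1.gcd_eq
    rw [Nat.Coprime, this]
    exact ZMod.val_coe_unit_coprime u₁
  have hc2 : Nat.Coprime A m₂ := by
    have := hA2.gcd_eq
    rw [Nat.Coprime, this]
    exact ZMod.val_coe_unit_coprime u₂
  refine ⟨ZMod.unitOfCoprime A (Nat.Coprime.mul_right hc1 hc2), ?_, ?_⟩
  · rw [ZMod.coe_unitOfCoprime, ZMod.val_natCast, Nat.mod_mul_right_mod]
    have : A % m₁ = (u₁ : ZMod m₁).val % m₁ := hA1
    rw [this, Nat.mod_eq_of_lt (ZMod.val_lt _)]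
  · rw [ZMod.coe_unitOfCoprime, ZMod.val_natCast, Nat.mod_mul_left_mod]
    have : A % m₂ = (u₂ : ZMod m₂).val % m₂ := hA2
    rw [this, Nat.mod_eq_of_lt (ZMod.val_lt _)]

end Arith

end Fermat.Agent.S14.Cross
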