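import Fermat.Agent.S14.Cross.Field
import Fermat.Agent.S14.FrobSplit

/-!
# S14, piece CROSS (R2): a degree-one prime in the fixed field of the Frobenius

`K ⊆ F ⊆ Ω` with `Ω/K` abelian.  If the Frobenius of the prime `𝔭` of `K` in `Ω/K` fixes `F`, then
there is a prime `𝔓` of `F` above `𝔭` with `N_{F/K} 𝔓 = 𝔭`.
-/

set_option autoImplicit false
set_option linter.style.haveILetI false
set_option linter.unusedSectionVars false

open NumberField IntermediateField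

namespace Fermat.Agent.S14.Cross

section DegreeOne

variable {K : Type*} {Ω : Type*} [Field K] [NumberField K] [Field Ω] [NumberField Ω]
  [Algebra K Ω] [IsAbelianGalois K Ω]

open scoped IsMulCommutative in
/-- **CROSS (R2)**: if `frob K Ω 𝔭` fixes the intermediate field `F`, then some prime of `F` above
`𝔭` has relative norm `𝔭` (and is prime to any `n ∉ 𝔭`). -/
theorem exists_relNorm_eq_of_frob_mem (F : IntermediateField K Ω) (𝔭 : Ideal (𝓞 K)) [𝔭.IsPrime]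
    (h0 : 𝔭 ≠ ⊥) (hfrob : frob K Ω 𝔭 ∈ F.fixingSubgroup) (n : ℕ) (hn : (n : 𝓞 K) ∉ 𝔭) :
    ∃ 𝔓 : Ideal (𝓞 F), 𝔓 ≠ ⊥ ∧ IsCoprime 𝔓 (Ideal.span {(n : 𝓞 F)}) ∧
      Ideal.relNorm (𝓞 K) 𝔓 = 𝔭 := by
  set Q : Ideal (𝓞 Ω) := primeOver K Ω 𝔭 with hQ
  set 𝔓 : Ideal (𝓞 F) := Q.under (𝓞 F) with h𝔓
  haveI hQ𝔭 : Q.LiesOver 𝔭 := primeOver_liesOver K Ω 𝔭
  haveI h𝔓prime : 𝔓.IsPrime := Ideal.IsPrime.under (𝓞 F) Q
  haveI h𝔓𝔭 : 𝔓.LiesOver 𝔭 := ⟨by rw [h𝔓, Ideal.under_under, ← Ideal.over_def Q 𝔭]⟩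
  have h𝔓0 : 𝔓 ≠ ⊥ := Ideal.ne_bot_of_liesOver_of_ne_bot h0 𝔓
  haveI h𝔓max : 𝔓.IsMaximal := h𝔓prime.isMaximal h𝔓0
  have hn𝔓 : (n : 𝓞 F) ∉ 𝔓 := by
    intro hmem
    apply hn
    rw [Ideal.over_def 𝔓 𝔭, Ideal.under_def, Ideal.mem_comap, map_natCast]
    exact hmem
  refine ⟨𝔓, h𝔓0, ?_, ?_⟩
  · rw [Ideal.isCoprime_iff_sup_eq]
    by_contra hne
    have := h𝔓max.eq_of_le hne le_sup_left
    apply hn𝔓
    rw [this]
    exact Ideal.mem_sup_right (Ideal.mem_span_singleton_self _)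
  · -- the residue field of `𝔓` has at most `N𝔭` elements
    have hpow : ∀ x : 𝓞 F, x ^ Ideal.absNorm 𝔭 - x ∈ 𝔓 := by
      intro x
      have h1 := frob_smul_sub_pow_mem K Ω 𝔭 h0 Q (algebraMap (𝓞 F) (𝓞 Ω) x)
      have h2 : frob K Ω 𝔭 • algebraMap (𝓞 F) (𝓞 Ω) x = algebraMap (𝓞 F) (𝓞 Ω) x := by
        apply RingOfIntegers.ext
        exact hfrob ⟨(x : F), x.1.2⟩
      rw [h2] at h1
      rw [h𝔓, Ideal.under_def, Ideal.mem_comap, map_sub, map_pow]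
      have := Q.neg_mem h1
      rwa [neg_sub] at this
    letI : Field (𝓞 F ⧸ 𝔓) := Ideal.Quotient.field 𝔓
    haveI : Finite (𝓞 F ⧸ 𝔓) := Ideal.finiteQuotientOfFreeOfNeBot 𝔓 h𝔓0
    have h2le := one_lt_absNorm_of_isPrime K 𝔭 h0
    have hcard : Nat.card (𝓞 F ⧸ 𝔓) ≤ Ideal.absNorm 𝔭 :=
      card_le_of_forall_pow_eq_self h2le ((forall_pow_sub_mem_iff 𝔓 _).mp hpow)
    obtain ⟨f, hf, hfcard⟩ := FrobTower.exists_relNorm_eq_pow_and_card K F 𝔭 𝔓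
    rw [FrobTower.card_quotient_eq_absNorm, FrobTower.card_quotient_eq_absNorm] at hfcard
    rw [FrobTower.card_quotient_eq_absNorm, hfcard] at hcard
    -- `f = 1`
    have hf1 : f = 1 := by
      have hf0 : f ≠ 0 := by
        rintro rfl
        rw [pow_zero] at hf
        have h3 : Ideal.absNorm 𝔓 = 1 := by
          rw [← Ideal.absNorm_relNorm (R := 𝓞 K), hf, Ideal.one_eq_top, Ideal.absNorm_top]
        exact h𝔓prime.ne_top (Ideal.absNorm_eq_one_iff.mp h3)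
      have hle : f ≤ 1 := by
        by_contra hlt
        push Not at hlt
        have : Ideal.absNorm 𝔭 ^ 2 ≤ Ideal.absNorm 𝔭 ^ f :=
          Nat.pow_le_pow_right (by omega) hlt
        nlinarith
      omega
    rw [hf, hf1, pow_one]

end DegreeOne

end Fermat.Agent.S14.Cross
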