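import Fermat.Agent.S14.Cross.Assembly
import Fermat.Agent.S14.FrobTower

/-!
# S14, piece CROSS: auxiliary fields inside an abelian overfield

`K ⊆ L ⊆ Ω` number fields with `Ω/K` abelian.  For an intermediate field `F` of `Ω/K` we form the
compositum `compL F = F·L` (as an intermediate field of `Ω/F`) and transport the data of `L/K`
to `F·L/F`.
-/

set_option autoImplicit false

open NumberField IntermediateField

namespace Fermat.Agent.S14.Cross

section Comp

variable {K : Type*} (L : Type*) {Ω : Type*} [Field K] [Field L] [Field Ω]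
  [Algebra K L] [Algebra K Ω] [Algebra L Ω] [IsScalarTower K L Ω]

/-- The compositum `F·L` inside `Ω`, as an intermediate field of `Ω/F`. -/
def compL (F : IntermediateField K Ω) : IntermediateField F Ω :=
  IntermediateField.adjoin F (Set.range (algebraMap L Ω))

variable (F : IntermediateField K Ω)

theorem algebraMap_mem_compL (x : L) : algebraMap L Ω x ∈ compL L F :=
  IntermediateField.subset_adjoin _ _ ⟨x, rfl⟩

/-- `L` maps into the compositum. -/
noncomputable instance algebraCompL : Algebra L (compL L F) :=
  RingHom.toAlgebra ((algebraMap L Ω).codRestrict (compL L F) (algebraMap_mem_compL L F))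

theorem coe_algebraMap_compL (x : L) :
    ((algebraMap L (compL L F) x : compL L F) : Ω) = algebraMap L Ω x := rfl

instance isScalarTower_compL : IsScalarTower K L (compL L F) :=
  IsScalarTower.of_algebraMap_eq fun x => by
    apply Subtype.ext
    rw [coe_algebraMap_compL, ← IsScalarTower.algebraMap_apply K L Ω]
    rfl

instance isScalarTower_compL' : IsScalarTower L (compL L F) Ω :=
  IsScalarTower.of_algebraMap_eq fun _ => rfl

theorem adjoin_range_algebraMap_compL :
    IntermediateField.adjoin F (Set.range (algebraMap L (compL L F))) = ⊤ := by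
  apply IntermediateField.map_injective (compL L F).val
  rw [IntermediateField.adjoin_map, ← AlgHom.fieldRange_eq_map, IntermediateField.fieldRange_val]
  have : (compL L F).val '' Set.range (algebraMap L (compL L F)) =
      Set.range (algebraMap L Ω) := by
    ext y
    constructor
    · rintro ⟨_, ⟨x, rfl⟩, rfl⟩
      exact ⟨x, rfl⟩
    · rintro ⟨x, rfl⟩
      exact ⟨_, ⟨x, rfl⟩, rfl⟩
  rw [this]
  rfl

end Comp

section NF

open Fermat.Agent.S14.FrobTower

variable {K : Type*} (L : Type*) {Ω : Type*} [Field K] [NumberField K] [Field L] [NumberField L]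
  [Field Ω] [NumberField Ω]
  [Algebra K L] [Algebra K Ω] [Algebra L Ω] [IsScalarTower K L Ω] [IsAbelianGalois K L]
  [IsAbelianGalois K Ω] (F : IntermediateField K Ω)

theorem galRestrict_compL_injective : Function.Injective (galRestrict K F L (compL L F)) :=
  galRestrict_injective_of_adjoin_eq_top K F L (compL L F) (adjoin_range_algebraMap_compL L F)

theorem isUnramifiedEverywhere_compL (hunr : IsUnramifiedEverywhere K L) :
    IsUnramifiedEverywhere F (compL L F) :=
  isUnramifiedEverywhere_of_injective hunr (galRestrict_compL_injective L F)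

/-- An element of `Gal(Ω/K)` fixing `F` induces an element of `Gal(F·L/F)`. -/
noncomputable def toGalComp (h : Gal(Ω/K)) (hh : h ∈ F.fixingSubgroup) : Gal(compL L F/F) :=
  AlgEquiv.restrictNormalHom (compL L F) (fixingSubgroupEquiv F ⟨h, hh⟩)

theorem coe_toGalComp (h : Gal(Ω/K)) (hh : h ∈ F.fixingSubgroup) (y : compL L F) :
    ((toGalComp L F h hh y : compL L F) : Ω) = h (y : Ω) :=
  AlgEquiv.restrictNormal_commutes (fixingSubgroupEquiv F ⟨h, hh⟩) (compL L F) y

theorem galRestrict_toGalComp (h : Gal(Ω/K)) (hh : h ∈ F.fixingSubgroup) :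
    galRestrict K F L (compL L F) (toGalComp L F h hh) = AlgEquiv.restrictNormalHom L h := by
  ext x
  apply (algebraMap L Ω).injective
  have h1 := algebraMap_galRestrict K L (toGalComp L F h hh) x
  have h2 := congrArg (fun y : compL L F => (y : Ω)) h1
  simp only [coe_algebraMap_compL, coe_toGalComp] at h2
  rw [h2]
  exact (AlgEquiv.restrictNormal_commutes h L x).symm

/-- If some element of `Gal(Ω/K)` fixing `F` acts nontrivially on `L` (of prime degree `p` over
`K`), then `F·L/F` has degree `p`. -/
theorem finrank_compL {p : ℕ} (hp : p.Prime) (hdeg : Module.finrank K L = p)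
    (h : Gal(Ω/K)) (hh : h ∈ F.fixingSubgroup) (hne : AlgEquiv.restrictNormalHom L h ≠ 1) :
    Module.finrank F (compL L F) = p := by
  have hcard : Nat.card Gal(L/K) = p := by
    rw [IsGalois.card_aut_eq_finrank, hdeg]
  rw [← IsGalois.card_aut_eq_finrank]
  have hinj := galRestrict_compL_injective L F
  have hdvd : Nat.card Gal(compL L F/F) ∣ p := by
    rw [← hcard]
    exact Subgroup.card_dvd_of_injective _ hinj
  rcases (Nat.dvd_prime hp).mp hdvd with h1 | h1
  · exfalso
    apply hne
    rw [← galRestrict_toGalComp L F h hh]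
    have : Subsingleton Gal(compL L F/F) := (Nat.card_eq_one_iff_unique.mp h1).1
    rw [Subsingleton.elim (toGalComp L F h hh) 1, map_one]
  · exact h1

/-- If every element of `Gal(Ω/K)` fixing `F` and `ζ` acts trivially on `L`, then `F·L ⊆ F(ζ)`. -/
theorem compL_le_adjoin (ζ : Ω)
    (hstar : ∀ h : Gal(Ω/K), h ∈ F.fixingSubgroup → h ζ = ζ →
      AlgEquiv.restrictNormalHom L h = 1) :
    compL L F ≤ F⟮ζ⟯ := by
  rw [← IsGalois.fixedField_fixingSubgroup F⟮ζ⟯, IntermediateField.le_iff_le]
  intro g hg
  have hgζ : g ζ = ζ := hg ⟨ζ, IntermediateField.mem_adjoin_simple_self F ζ⟩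
  have hmem : g.restrictScalars K ∈ F.fixingSubgroup := fun x => g.commutes x
  have h1 := hstar (g.restrictScalars K) hmem hgζ
  have hfix : ∀ x : L, g (algebraMap L Ω x) = algebraMap L Ω x := by
    intro x
    have := AlgEquiv.restrictNormal_commutes (g.restrictScalars K) L x
    have h2 : (g.restrictScalars K).restrictNormal L = 1 := h1
    rw [h2] at this
    exact this.symm
  rw [IntermediateField.mem_fixingSubgroup_iff]
  intro y hy
  unfold compL at hy
  induction hy using IntermediateField.adjoin_induction with
  | mem x hx =>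
    obtain ⟨x, rfl⟩ := hx
    exact hfix x
  | algebraMap x => exact g.commutes x
  | add x y _ _ hx hy => rw [map_add, hx, hy]
  | inv x _ hx => rw [map_inv₀, hx]
  | mul x y _ _ hx hy => rw [map_mul, hx, hy]

end NF

end Fermat.Agent.S14.Cross
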