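import Fermat.Agent.S14.FrobTower
import Fermat.Agent.S14.FrobCyclo
import Fermat.Agent.S14.FrobSplit
import Fermat.Agent.S14.Tame

/-!
# S14, piece CROSS (R4): Frobenius elements in `Ω = L(ζ_m)`

`K ⊆ L ⊆ Ω` number fields, `L/K` and `Ω/K` abelian, `Ω = L(ζ_m)`, `L/K` everywhere unramified.

* `isUnramifiedAbove_cyclo` : `Ω/K` is unramified above the primes of `K` not containing `m`.
* `restrictNormalHom_frob_cyclo` : the Frobenius of `Ω/K` restricts to the Frobenius of `L/K`.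
* `frob_cyclo_apply` : the Frobenius of `Ω/K` raises the `m`-th roots of unity to the power `N𝔭`.
* `stabilizer_primeOver_cyclo` : the decomposition group is generated by the Frobenius.
-/

set_option autoImplicit false
set_option linter.style.haveILetI false
set_option linter.unusedSectionVars false

open NumberField
open scoped Pointwise

namespace Fermat.Agent.S14.Cross

section FrobOmega

variable {K : Type*} (L : Type*) {Ω : Type*} [Field K] [NumberField K] [Field L] [NumberField L]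
  [Field Ω] [NumberField Ω]
  [Algebra K L] [Algebra K Ω] [Algebra L Ω] [IsScalarTower K L Ω] [IsAbelianGalois K L]
  [IsAbelianGalois K Ω] (m : ℕ) [NeZero m] [IsCyclotomicExtension {m} L Ω]

/-- An element of `Gal(Ω/K)` which fixes `L` and a primitive `m`-th root of unity is trivial. -/
theorem eq_one_of_fixes {ζ : Ω} (hζ : IsPrimitiveRoot ζ m) (g : Gal(Ω/K))
    (hL : ∀ x : L, g (algebraMap L Ω x) = algebraMap L Ω x) (hgζ : g ζ = ζ) : g = 1 := by
  let gL : Ω →ₐ[L] Ω := { (g : Ω →+* Ω) with commutes' := hL }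
  have hpb := (hζ.powerBasis L).algHom_ext (f := gL) (g := AlgHom.id L Ω) (by
    rw [IsPrimitiveRoot.powerBasis_gen]
    exact hgζ)
  ext x
  exact DFunLike.congr_fun hpb x

/-- **R4a**: `Ω = L(ζ_m)` is unramified over `K` above the primes not containing `m`, if `L/K` is
everywhere unramified. -/
theorem isUnramifiedAbove_cyclo (hunr : IsUnramifiedEverywhere K L) (𝔭 : Ideal (𝓞 K))
    [𝔭.IsPrime] (hm : (m : 𝓞 K) ∉ 𝔭) : FrobTower.IsUnramifiedAbove K Ω 𝔭 := by
  intro Q hQ hQ𝔭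
  haveI := hQ
  haveI := hQ𝔭
  rw [eq_bot_iff]
  intro g hg
  rw [Subgroup.mem_bot]
  have hmQ : (m : 𝓞 Ω) ∉ Q := by
    intro h
    apply hm
    rw [Ideal.over_def Q 𝔭, Ideal.under_def, Ideal.mem_comap, map_natCast]
    exact h
  obtain ⟨ζ, hζ⟩ := IsCyclotomicExtension.exists_isPrimitiveRoot L Ω (Set.mem_singleton m)
    (NeZero.ne m)
  -- `g` fixes `ζ`
  have hgζ : g ζ = ζ := by
    have hint : IsIntegral ℤ ζ := hζ.isIntegral (NeZero.pos m)
    set ζ' : 𝓞 Ω := ⟨ζ, hint⟩ with hζ'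
    have hζ'pow : ζ' ^ m = 1 := by
      apply RingOfIntegers.ext
      change algebraMap (𝓞 Ω) Ω (ζ' ^ m) = algebraMap (𝓞 Ω) Ω 1
      rw [map_pow, map_one]
      exact hζ.pow_eq_one
    obtain ⟨u, hu⟩ := IsUnit.of_pow_eq_one hζ'pow (NeZero.ne m)
    have hmem : g • ζ' - ζ' ∈ Q := hg ζ'
    have hη : (g • ζ' * ↑u⁻¹) ^ m = 1 := by
      rw [mul_pow, ← smul_pow', hζ'pow, smul_one, one_mul, ← Units.val_pow_eq_pow_val, inv_pow,
        ← Units.val_one, Units.val_inj, inv_eq_one]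
      ext
      rw [Units.val_pow_eq_pow_val, hu, hζ'pow, Units.val_one]
    have hmem2 : g • ζ' * ↑u⁻¹ - 1 ∈ Q := by
      have : g • ζ' * ↑u⁻¹ - 1 = (g • ζ' - ζ') * ↑u⁻¹ := by
        rw [sub_mul, ← hu, Units.mul_inv]
      rw [this]
      exact Q.mul_mem_right _ hmem
    have h1 := Tame.eq_one_of_sub_one_mem hmQ hη hmem2
    have h2 : g • ζ' = ζ' := by
      have := Units.mul_inv_eq_one.mp h1
      rwa [hu] at this
    exact congrArg (algebraMap (𝓞 Ω) Ω) h2
  -- `g` fixes `L`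
  have hgL : AlgEquiv.restrictNormalHom L g = 1 := by
    by_cases hQ0 : Q = ⊥
    · ext x
      obtain ⟨a, b, hb, rfl⟩ := IsFractionRing.div_surjective (A := 𝓞 L) x
      have key : ∀ y : 𝓞 L, AlgEquiv.restrictNormalHom L g (algebraMap (𝓞 L) L y) =
          algebraMap (𝓞 L) L y := by
        intro y
        apply (algebraMap L Ω).injective
        change algebraMap L Ω (g.restrictNormal L _) = _
        rw [AlgEquiv.restrictNormal_commutes]
        have := hg (algebraMap (𝓞 L) (𝓞 Ω) y)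
        rw [hQ0, Submodule.mem_toAddSubgroup, Ideal.mem_bot, sub_eq_zero] at this
        exact congrArg (algebraMap (𝓞 Ω) Ω) this
      rw [map_div₀, key, key]
      rfl
    · have hq0 : Q.under (𝓞 L) ≠ ⊥ := Ideal.under_ne_bot (𝓞 L) hQ0
      have hmem : AlgEquiv.restrictNormalHom L g ∈ Ideal.inertia Gal(L/K) (Q.under (𝓞 L)) := by
        intro y
        rw [Submodule.mem_toAddSubgroup, Ideal.under_def, Ideal.mem_comap, map_sub]
        have h1 := FrobTower.algebraMap_galRestrict_smul K L (F' := K) (M' := Ω) g y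
        have h2 : FrobTower.galRestrict K K L Ω g = AlgEquiv.restrictNormalHom L g := by
          ext x
          rfl
        rw [h2] at h1
        rw [h1]
        exact hg _
      rw [hunr _ inferInstance hq0, Subgroup.mem_bot] at hmem
      exact hmem
  refine eq_one_of_fixes L m hζ g (fun x => ?_) hgζ
  have := AlgEquiv.restrictNormal_commutes g L x
  have h2 : g.restrictNormal L = 1 := hgL
  rw [h2] at this
  exact this.symm

/-- **R4b**: the Frobenius of `Ω/K` restricts to the Frobenius of `L/K`. -/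
theorem restrictNormalHom_frob_cyclo (hunr : IsUnramifiedEverywhere K L) (𝔭 : Ideal (𝓞 K))
    [𝔭.IsPrime] (h0 : 𝔭 ≠ ⊥) :
    AlgEquiv.restrictNormalHom L (frob K Ω 𝔭) = frob K L 𝔭 :=
  FrobTower.restrictNormalHom_frob K L Ω 𝔭 h0 (FrobTower.isUnramifiedAbove_of_everywhere hunr 𝔭 h0)

omit [IsAbelianGalois K L] [IsCyclotomicExtension {m} L Ω] [NumberField L] [Algebra K L]
  [IsScalarTower K L Ω] [Algebra L Ω] in
/-- **R4c**: the Frobenius of `Ω/K` raises the `m`-th roots of unity to the power `N𝔭`. -/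
theorem frob_cyclo_apply (𝔭 : Ideal (𝓞 K)) [𝔭.IsPrime] (h0 : 𝔭 ≠ ⊥) (hm : (m : 𝓞 K) ∉ 𝔭)
    {ζ : Ω} (hζ : ζ ^ m = 1) : frob K Ω 𝔭 ζ = ζ ^ Ideal.absNorm 𝔭 :=
  frob_apply_of_pow_eq_one K Ω 𝔭 h0 hm hζ

/-- **R4d**: the decomposition group of `primeOver K Ω 𝔭` is generated by the Frobenius. -/
theorem stabilizer_primeOver_cyclo (hunr : IsUnramifiedEverywhere K L) (𝔭 : Ideal (𝓞 K))
    [𝔭.IsPrime] (h0 : 𝔭 ≠ ⊥) (hm : (m : 𝓞 K) ∉ 𝔭) :
    MulAction.stabilizer Gal(Ω/K) (primeOver K Ω 𝔭) = Subgroup.zpowers (frob K Ω 𝔭) :=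
  stabilizer_eq_zpowers_frob K Ω 𝔭 h0 (primeOver K Ω 𝔭)
    (isUnramifiedAbove_cyclo L m hunr 𝔭 hm _ inferInstance inferInstance)

end FrobOmega

end Fermat.Agent.S14.Cross
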