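import Fermat.Agent.S14.Cross.Field
import Fermat.Agent.S14.Graph
import Fermat.Agent.S14.Tame
import Fermat.Agent.S14.SecondIneq

/-!
# S14, piece CROSS (R1): the auxiliary fields are good

`K ⊆ L ⊆ Ω` number fields, `Ω/K` abelian, `L/K` of odd prime degree `p`, everywhere unramified.
If `F` is an intermediate field of `Ω/K` with `F·L ⊆ F(ζ_{r₁}) ∩ F(ζ_{r₂})` (expressed through the
Galois group) and `L ⊄ F`, then `F` is a good field away from `r₁ r₂` in the sense of
`IsGoodField`: tame reciprocity (TAME), the second inequality (SECOND) and the existence of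
non-split primes (ZETA) identify the kernel of the Artin map of `F·L/F` (GRAPH), and the norm
functoriality of the Artin symbol pushes this down to `L/K`.
-/

set_option autoImplicit false

open NumberField IntermediateField

namespace Fermat.Agent.S14.Cross

open Fermat.Agent.S14.FrobTower

variable {K : Type*} (L : Type*) {Ω : Type*} [Field K] [NumberField K] [Field L] [NumberField L]
  [Field Ω] [NumberField Ω]
  [Algebra K L] [Algebra K Ω] [Algebra L Ω] [IsScalarTower K L Ω] [IsAbelianGalois K L]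
  [IsAbelianGalois K Ω]

/-- Push-down: if the kernel of the Artin map of `F·L/F` (on ideals prime to `n`) consists of norm
classes, then `F` is a good field. -/
theorem isGoodField_of_artin (F : IntermediateField K Ω) (n : ℕ)
    (hunr : IsUnramifiedEverywhere K L)
    (hgraph : ∀ 𝔄 : Ideal (𝓞 F), 𝔄 ≠ ⊥ → IsCoprime 𝔄 (Ideal.span {(n : 𝓞 F)}) →
      artin F (compL L F) 𝔄 = 1 → idealClass 𝔄 ∈ normClasses F (compL L F)) :
    IsGoodField K L F n := by
  intro 𝔄 h0 hc h1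
  have h2 := galRestrict_artin K L (F' := F) (M' := compL L F) hunr 𝔄 h0
  rw [h1, ← map_one (galRestrict K F L (compL L F))] at h2
  have h3 := galRestrict_compL_injective L F h2
  exact idealClass_relNorm_mem_normClasses K L F (compL L F) 𝔄 h0 (hgraph 𝔄 h0 hc h3)

/-- **R1**: an intermediate field `F` of `Ω/K` not containing `L` and with
`F·L ⊆ F(ζ₁) ∩ F(ζ₂)`, `ζ_j` primitive `r_j`-th roots of unity for two distinct primes, is a good
field away from `r₁ r₂`. -/
theorem isGoodField_fixedField {p : ℕ} (hp : p.Prime) (hp2 : p ≠ 2)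
    (hdeg : Module.finrank K L = p) (hunr : IsUnramifiedEverywhere K L)
    (F : IntermediateField K Ω) {r₁ r₂ : ℕ} (hr₁ : r₁.Prime) (hr₂ : r₂.Prime) (hne : r₁ ≠ r₂)
    {ζ₁ ζ₂ : Ω} (hζ₁ : IsPrimitiveRoot ζ₁ r₁) (hζ₂ : IsPrimitiveRoot ζ₂ r₂)
    (h₁ : ∀ h : Gal(Ω/K), h ∈ F.fixingSubgroup → h ζ₁ = ζ₁ →
      AlgEquiv.restrictNormalHom L h = 1)
    (h₂ : ∀ h : Gal(Ω/K), h ∈ F.fixingSubgroup → h ζ₂ = ζ₂ →
      AlgEquiv.restrictNormalHom L h = 1)
    (h₀ : ∃ h : Gal(Ω/K), h ∈ F.fixingSubgroup ∧ AlgEquiv.restrictNormalHom L h ≠ 1) :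
    IsGoodField K L F (r₁ * r₂) := by
  obtain ⟨h, hh, hne1⟩ := h₀
  have hdegM : Module.finrank F (compL L F) = p := finrank_compL L F hp hdeg h hh hne1
  have hunrM : IsUnramifiedEverywhere F (compL L F) := isUnramifiedEverywhere_compL L F hunr
  haveI : NeZero r₁ := ⟨hr₁.ne_zero⟩
  haveI : NeZero r₂ := ⟨hr₂.ne_zero⟩
  have hle₁ : compL L F ≤ F⟮ζ₁⟯ := compL_le_adjoin L F ζ₁ h₁
  have hle₂ : compL L F ≤ F⟮ζ₂⟯ := compL_le_adjoin L F ζ₂ h₂
  letI : Algebra (compL L F) F⟮ζ₁⟯ := (IntermediateField.inclusion hle₁).toRingHom.toAlgebra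
  letI : Algebra (compL L F) F⟮ζ₂⟯ := (IntermediateField.inclusion hle₂).toRingHom.toAlgebra
  haveI : IsScalarTower F (compL L F) F⟮ζ₁⟯ :=
    IsScalarTower.of_algebraMap_eq fun x => ((IntermediateField.inclusion hle₁).commutes x).symm
  haveI : IsScalarTower F (compL L F) F⟮ζ₂⟯ :=
    IsScalarTower.of_algebraMap_eq fun x => ((IntermediateField.inclusion hle₂).commutes x).symm
  haveI : IsCyclotomicExtension {r₁} F F⟮ζ₁⟯ :=
    hζ₁.intermediateField_adjoin_isCyclotomicExtension F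
  haveI : IsCyclotomicExtension {r₂} F F⟮ζ₂⟯ :=
    hζ₂.intermediateField_adjoin_isCyclotomicExtension F
  have hodd : Odd (Module.finrank F (compL L F)) := by
    rw [hdegM]; exact hp.odd_of_ne_two hp2
  have hprin : ∀ β : 𝓞 F, β ≠ 0 →
      IsCoprime (Ideal.span {β}) (Ideal.span {((r₁ * r₂ : ℕ) : 𝓞 F)}) →
      artin F (compL L F) (Ideal.span {β}) = 1 := fun β hβ0 hβ =>
    artin_span_singleton_eq_one_of_cyclotomic F (compL L F) F⟮ζ₁⟯ F⟮ζ₂⟯ hr₁ hr₂ hne hodd β hβ0 hβ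
  have h𝔪 : Ideal.span {((r₁ * r₂ : ℕ) : 𝓞 F)} ≠ ⊥ := by
    rw [Ne, Ideal.span_singleton_eq_bot, Nat.cast_eq_zero]
    exact Nat.mul_ne_zero hr₁.ne_zero hr₂.ne_zero
  refine isGoodField_of_artin L F (r₁ * r₂) hunr fun 𝔄 h0 hc h1 => ?_
  have := mk0_mem_normClasses_of_artin_eq_one F (compL L F) hp hdegM hunrM
    (card_quotient_normClasses_le F (compL L F)) _ h𝔪 hprin
    ⟨𝔄, mem_nonZeroDivisors_of_ne_zero h0⟩ hc h1
  rwa [idealClass_of_ne_bot h0]

end Fermat.Agent.S14.Cross
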