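import Fermat.Agent.S14.Cross.Field
import Fermat.Agent.S14.Zeta
import Fermat.Agent.S14.FrobSplit

/-!
# S14, piece CROSS, sub-piece R3: the pair prime

* `isCoprime_relNorm_of_isPrime` : the relative norm of a nonzero prime not containing `n` is
  coprime to `n`.
* `exists_prime_artin_relNorm_ne_one` : if some element of `Gal(Ω/K)` fixing the auxiliary field
  `F` acts nontrivially on `L`, then outside the primes dividing `n` there is a prime `𝔅` of `F`
  whose norm to `K` has nontrivial Artin symbol in `L/K`.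
-/

set_option autoImplicit false
set_option linter.style.haveILetI false

open NumberField IntermediateField

namespace Fermat.Agent.S14.Cross

section Coprime

variable (F F' : Type*) [Field F] [NumberField F] [Field F'] [NumberField F'] [Algebra F F']

/-- The relative norm of a nonzero prime not containing `n` is coprime to `n`. -/
theorem isCoprime_relNorm_of_isPrime (𝔅 : Ideal (𝓞 F')) [𝔅.IsPrime] (h0 : 𝔅 ≠ ⊥) (n : ℕ)
    (hn : (n : 𝓞 F') ∉ 𝔅) :
    IsCoprime (Ideal.relNorm (𝓞 F) 𝔅) (Ideal.span {(n : 𝓞 F)}) := by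
  have hBm : 𝔅.IsMaximal := Ring.DimensionLEOne.maximalOfPrime h0 inferInstance
  have hu0 : 𝔅.under (𝓞 F) ≠ ⊥ := Ideal.under_ne_bot (𝓞 F) h0
  have hum : (𝔅.under (𝓞 F)).IsMaximal := Ring.DimensionLEOne.maximalOfPrime hu0 inferInstance
  rw [Ideal.relNorm_eq_pow_of_isMaximal 𝔅 (𝔅.under (𝓞 F))]
  apply IsCoprime.pow_left
  rw [Ideal.isCoprime_iff_sup_eq]
  by_contra hne
  apply hn
  have hle : Ideal.span {(n : 𝓞 F)} ≤ 𝔅.under (𝓞 F) := by
    have := hum.eq_of_le hne le_sup_left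
    rw [this]
    exact le_sup_right
  have hmem : (n : 𝓞 F) ∈ 𝔅.under (𝓞 F) := hle (Ideal.mem_span_singleton_self _)
  rw [Ideal.under_def, Ideal.mem_comap, map_natCast] at hmem
  exact hmem

end Coprime

section NF

open Fermat.Agent.S14.FrobTower

variable {K : Type*} (L : Type*) {Ω : Type*} [Field K] [NumberField K] [Field L] [NumberField L]
  [Field Ω] [NumberField Ω]
  [Algebra K L] [Algebra K Ω] [Algebra L Ω] [IsScalarTower K L Ω] [IsAbelianGalois K L]
  [IsAbelianGalois K Ω]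

/-- The set of primes of a number field containing a nonzero natural number is finite. -/
theorem finite_setOf_isPrime_natCast_mem (E : Type*) [Field E] [NumberField E] (n : ℕ)
    (hn : n ≠ 0) : {𝔭 : Ideal (𝓞 E) | 𝔭.IsPrime ∧ (n : 𝓞 E) ∈ 𝔭}.Finite := by
  have hn0 : Ideal.span {(n : 𝓞 E)} ≠ ⊥ := by
    rw [Ne, Ideal.span_singleton_eq_bot]
    exact_mod_cast hn
  refine Set.Finite.subset
    (UniqueFactorizationMonoid.normalizedFactors
      (Ideal.span {(n : 𝓞 E)})).toFinset.finite_toSet ?_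
  rintro 𝔮 ⟨h1, h2⟩
  rw [Finset.mem_coe, Multiset.mem_toFinset, Ideal.mem_normalizedFactors_iff hn0]
  exact ⟨h1, (Ideal.span_singleton_le_iff_mem _).mpr h2⟩

open scoped IsMulCommutative in
/-- **The pair prime**: if some element of `Gal(Ω/K)` fixing `F` acts nontrivially on `L`, then
there is a prime `𝔅` of `F`, not containing `n`, such that `N_{F/K} 𝔅` has nontrivial Artin symbol
in `L/K`. -/
theorem exists_prime_artin_relNorm_ne_one {p : ℕ} (hp : p.Prime)
    (hdeg : Module.finrank K L = p) (hunr : IsUnramifiedEverywhere K L)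
    (F : IntermediateField K Ω)
    (h₀ : ∃ h : Gal(Ω/K), h ∈ F.fixingSubgroup ∧ AlgEquiv.restrictNormalHom L h ≠ 1)
    (n : ℕ) (hn : n ≠ 0) :
    ∃ 𝔅 : Ideal (𝓞 F), 𝔅.IsPrime ∧ 𝔅 ≠ ⊥ ∧ (n : 𝓞 F) ∉ 𝔅 ∧
      artin K L (Ideal.relNorm (𝓞 K) 𝔅) ≠ 1 := by
  obtain ⟨h, hh, hne⟩ := h₀
  have hdegM : Module.finrank F (compL L F) = p := finrank_compL L F hp hdeg h hh hne
  have hunrM : IsUnramifiedEverywhere F (compL L F) := isUnramifiedEverywhere_compL L F hunr
  haveI : IsAbelianGalois F (compL L F) := inferInstance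
  obtain ⟨𝔅, h𝔅p, h𝔅0, h𝔅S, h𝔅lt⟩ := exists_prime_not_split F (compL L F)
    (by rw [hdegM]; exact hp.one_lt) _ (finite_setOf_isPrime_natCast_mem F n hn)
  haveI := h𝔅p
  refine ⟨𝔅, h𝔅p, h𝔅0, fun hmem => h𝔅S ⟨h𝔅p, hmem⟩, ?_⟩
  have hfrob : frob F (compL L F) 𝔅 ≠ 1 := by
    intro h1
    have := (frob_eq_one_iff_of_unramified F (compL L F) hunrM 𝔅 h𝔅0).mp h1
    omega
  have hart : artin F (compL L F) 𝔅 ≠ 1 := by
    rwa [artin_of_isPrime F (compL L F) 𝔅 h𝔅0]
  rw [← galRestrict_artin K L hunr 𝔅 h𝔅0 (M' := compL L F)]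
  intro h1
  apply hart
  apply galRestrict_compL_injective L F
  rw [h1, map_one]

end NF

end Fermat.Agent.S14.Cross
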