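import Fermat.Agent.S14.Cross.Good
import Fermat.Agent.S14.Cross.DegreeOne
import Fermat.Agent.S14.Cross.PairPrime

/-!
# S14, piece CROSS (R5, generic part): the pair property from the auxiliary fields

`K ⊆ L ⊆ Ω = L(ζ_m)` number fields, `Ω/K` abelian, `L/K` of odd prime degree `p`, everywhere
unramified.  For a generator-like pair `(σ, a)` and a root of unity `ζ` we consider the subgroup
`auxSubgroup L σ a ζ` of the `h ∈ Gal(Ω/K)` with `h|_L = σ ^ y` and `h ζ = ζ ^ (a ^ y)` for some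
`y`; its fixed field is the auxiliary field of the crossing argument.
-/

set_option autoImplicit false

open NumberField IntermediateField

namespace Fermat.Agent.S14.Cross

section Mono

variable {K L : Type*} [Field K] [NumberField K] [Field L] [NumberField L] [Algebra K L]
  [IsAbelianGalois K L]

theorem IsGoodField.mono {F : Type*} [Field F] [NumberField F] [Algebra K F] {n n' : ℕ}
    (h : IsGoodField K L F n) (hdvd : n ∣ n') : IsGoodField K L F n' := by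
  intro 𝔄 h0 hc h1
  refine h 𝔄 h0 ?_ h1
  rw [Ideal.isCoprime_iff_sup_eq] at hc ⊢
  rw [eq_top_iff, ← hc]
  refine sup_le_sup_left ?_ _
  rw [Ideal.span_singleton_le_iff_mem, Ideal.mem_span_singleton]
  exact_mod_cast Nat.cast_dvd_cast (α := 𝓞 F) hdvd

end Mono

section Aux

variable {K : Type*} (L : Type*) {Ω : Type*} [Field K] [NumberField K] [Field L] [NumberField L]
  [Field Ω] [NumberField Ω]
  [Algebra K L] [Algebra K Ω] [Algebra L Ω] [IsScalarTower K L Ω] [IsAbelianGalois K L]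
  [IsAbelianGalois K Ω]

/-- The set underlying `auxSubgroup`. -/
def auxSet (σ : Gal(L/K)) (a : ℕ) (ζ : Ω) : Set Gal(Ω/K) :=
  {h | ∃ y : ℕ, AlgEquiv.restrictNormalHom L h = σ ^ y ∧ h ζ = ζ ^ (a ^ y)}

variable {L}

theorem one_mem_auxSet (σ : Gal(L/K)) (a : ℕ) (ζ : Ω) : (1 : Gal(Ω/K)) ∈ auxSet L σ a ζ :=
  ⟨0, by simp, by simp⟩

theorem mul_mem_auxSet {σ : Gal(L/K)} {a : ℕ} {ζ : Ω} {h h' : Gal(Ω/K)}
    (hh : h ∈ auxSet L σ a ζ) (hh' : h' ∈ auxSet L σ a ζ) : h * h' ∈ auxSet L σ a ζ := by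
  obtain ⟨y, hy1, hy2⟩ := hh
  obtain ⟨y', hy1', hy2'⟩ := hh'
  refine ⟨y + y', ?_, ?_⟩
  · rw [map_mul, hy1, hy1', pow_add]
  · rw [AlgEquiv.mul_apply, hy2', map_pow, hy2, ← pow_mul, ← pow_add]

theorem pow_mem_auxSet {σ : Gal(L/K)} {a : ℕ} {ζ : Ω} {h : Gal(Ω/K)}
    (hh : h ∈ auxSet L σ a ζ) (n : ℕ) : h ^ n ∈ auxSet L σ a ζ := by
  induction n with
  | zero => rw [pow_zero]; exact one_mem_auxSet σ a ζ
  | succ n ih => rw [pow_succ]; exact mul_mem_auxSet ih hh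

variable (L)

/-- The auxiliary subgroup: the `h ∈ Gal(Ω/K)` with `h|_L = σ ^ y` and `h ζ = ζ ^ (a ^ y)` for
some `y`. -/
def auxSubgroup (σ : Gal(L/K)) (a : ℕ) (ζ : Ω) : Subgroup Gal(Ω/K) where
  carrier := auxSet L σ a ζ
  one_mem' := one_mem_auxSet σ a ζ
  mul_mem' := mul_mem_auxSet
  inv_mem' := by
    intro h hh
    have hpos : 0 < orderOf h := orderOf_pos h
    have : h⁻¹ = h ^ (orderOf h - 1) := by
      rw [inv_eq_iff_mul_eq_one, ← pow_succ', Nat.sub_add_cancel hpos, pow_orderOf_eq_one]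
    rw [this]
    exact pow_mem_auxSet hh _

variable {L}

theorem mem_auxSubgroup_iff {σ : Gal(L/K)} {a : ℕ} {ζ : Ω} {h : Gal(Ω/K)} :
    h ∈ auxSubgroup L σ a ζ ↔
      ∃ y : ℕ, AlgEquiv.restrictNormalHom L h = σ ^ y ∧ h ζ = ζ ^ (a ^ y) := Iff.rfl

/-- The fixing subgroup of the auxiliary field is the auxiliary subgroup. -/
theorem fixingSubgroup_fixedField_auxSubgroup (σ : Gal(L/K)) (a : ℕ) (ζ : Ω) :
    (fixedField (auxSubgroup L σ a ζ)).fixingSubgroup = auxSubgroup L σ a ζ :=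
  fixingSubgroup_fixedField _

/-- **(2)** an element of the auxiliary subgroup fixing a primitive `r`-th root of unity which is
a power of `ζ` acts trivially on `L`, if the order of `a` modulo `r` is a positive power of `p`
and `σ ^ p = 1`. -/
theorem restrictNormalHom_eq_one_of_mem_auxSubgroup {p : ℕ} {σ : Gal(L/K)} (hσ : σ ^ p = 1)
    {a : ℕ} {ζ : Ω} {r e k : ℕ} (hr : IsPrimitiveRoot (ζ ^ e) r) (hr1 : 1 < r) (hk : 1 ≤ k)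
    (hord : orderOf (a : ZMod r) = p ^ k)
    {h : Gal(Ω/K)} (hh : h ∈ auxSubgroup L σ a ζ) (hfix : h (ζ ^ e) = ζ ^ e) :
    AlgEquiv.restrictNormalHom L h = 1 := by
  obtain ⟨y, hy1, hy2⟩ := hh
  rw [hy1]
  -- `a ^ y ≡ 1 mod r`
  have h1 : (ζ ^ e) ^ (a ^ y) = ζ ^ e := by
    calc (ζ ^ e) ^ (a ^ y) = (ζ ^ (a ^ y)) ^ e := by rw [← pow_mul, ← pow_mul, mul_comm]
      _ = (h ζ) ^ e := by rw [hy2]
      _ = h (ζ ^ e) := (map_pow h ζ e).symm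
      _ = ζ ^ e := hfix
  have hapos : 0 < a ^ y := by
    rcases Nat.eq_zero_or_pos (a ^ y) with h0 | h0
    · exfalso
      rw [h0, pow_zero] at h1
      have := hr.pow_eq_one_iff_dvd 1
      rw [pow_one] at this
      have := this.mp h1.symm
      have := Nat.le_of_dvd one_pos this
      omega
    · exact h0
  have h2 : (ζ ^ e) ^ (a ^ y - 1) = 1 := by
    have hne : ζ ^ e ≠ 0 := hr.ne_zero (by omega)
    have : (ζ ^ e) ^ (a ^ y - 1) * (ζ ^ e) = 1 * (ζ ^ e) := by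
      rw [← pow_succ, Nat.sub_add_cancel hapos, h1, one_mul]
    exact mul_right_cancel₀ hne this
  have h3 : r ∣ a ^ y - 1 := (hr.pow_eq_one_iff_dvd _).mp h2
  have h4 : ((a : ZMod r)) ^ y = 1 := by
    have : ((a ^ y - 1 : ℕ) : ZMod r) = 0 := (ZMod.natCast_eq_zero_iff _ _).mpr h3
    rw [Nat.cast_sub hapos, Nat.cast_pow, Nat.cast_one, sub_eq_zero] at this
    exact this
  have h5 : p ^ k ∣ y := hord ▸ orderOf_dvd_of_pow_eq_one h4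
  have h6 : p ∣ y := (dvd_pow_self p (by omega)).trans h5
  obtain ⟨z, rfl⟩ := h6
  rw [pow_mul, hσ, one_pow]

end Aux

/-- exponents may be compared modulo `n` on elements killed by `n` (monoid version) -/
theorem pow_eq_pow_of_modEq' {M : Type*} [Monoid M] {c : M} {n i j : ℕ} (hc : c ^ n = 1)
    (h : i ≡ j [MOD n]) : c ^ i = c ^ j := by
  rw [pow_eq_pow_mod i hc, pow_eq_pow_mod j hc, h]

section Main

variable {K : Type*} (L : Type*) {Ω : Type*} [Field K] [NumberField K] [Field L] [NumberField L]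
  [Field Ω] [NumberField Ω]
  [Algebra K L] [Algebra K Ω] [Algebra L Ω] [IsScalarTower K L Ω] [IsAbelianGalois K L]
  [IsAbelianGalois K Ω]

open scoped IsMulCommutative in
/-- **The pair property** from the crossing with `Ω = L(ζ_m)`, `m = (r₁ r₁') (r₂ r₂')`. -/
theorem qClass_eq_pow_of_cyclo {p : ℕ} (hp : p.Prime) (hp2 : p ≠ 2)
    (hdeg : Module.finrank K L = p) (hunr : IsUnramifiedEverywhere K L)
    {m : ℕ} [NeZero m] [IsCyclotomicExtension {m} L Ω] {ζ : Ω} (hζ : IsPrimitiveRoot ζ m)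
    (hsurj : ∀ (s : Gal(L/K)) (c : ℕ), Nat.Coprime c m →
      ∃ g : Gal(Ω/K), AlgEquiv.restrictNormalHom L g = s ∧ g ζ = ζ ^ c)
    {𝔭₁ 𝔭₂ : Ideal (𝓞 K)} [𝔭₁.IsPrime] [𝔭₂.IsPrime] (h𝔭₁ : 𝔭₁ ≠ ⊥) (h𝔭₂ : 𝔭₂ ≠ ⊥)
    {r₁ r₁' r₂ r₂' : ℕ} (hr₁ : r₁.Prime) (hr₁' : r₁'.Prime) (hr₂ : r₂.Prime) (hr₂' : r₂'.Prime)
    (hne₁ : r₁ ≠ r₁') (hne₂ : r₂ ≠ r₂')
    (hcop : Nat.Coprime (r₁ * r₁') (r₂ * r₂'))
    (hm : m = (r₁ * r₁') * (r₂ * r₂'))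
    {k₁ k₁' k₂ k₂' : ℕ} (hk₁ : 1 ≤ k₁) (hk₁' : 1 ≤ k₁') (hk₂ : 1 ≤ k₂) (hk₂' : 1 ≤ k₂')
    (ho₁ : orderOf ((Ideal.absNorm 𝔭₁ : ℕ) : ZMod r₁) = p ^ k₁)
    (ho₁' : orderOf ((Ideal.absNorm 𝔭₁ : ℕ) : ZMod r₁') = p ^ k₁')
    (ho₂ : orderOf ((Ideal.absNorm 𝔭₂ : ℕ) : ZMod r₂) = p ^ k₂)
    (ho₂' : orderOf ((Ideal.absNorm 𝔭₂ : ℕ) : ZMod r₂') = p ^ k₂')
    (hc₁ : Nat.Coprime (Ideal.absNorm 𝔭₁) (r₁ * r₁'))
    (hc₂ : Nat.Coprime (Ideal.absNorm 𝔭₂) (r₂ * r₂'))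
    (hm₁ : (m : 𝓞 K) ∉ 𝔭₁) (hm₂ : (m : 𝓞 K) ∉ 𝔭₂)
    (hσ₁ : frob K L 𝔭₁ ≠ 1) (hσ₂ : frob K L 𝔭₂ ≠ 1) (d : ℕ)
    (hd : frob K L 𝔭₂ = frob K L 𝔭₁ ^ d) :
    qClass K L 𝔭₂ = qClass K L 𝔭₁ ^ d := by
  have hmpos : 0 < m := NeZero.pos m
  have hm0 : m ≠ 0 := hmpos.ne'
  have hm₁pos : 0 < r₁ * r₁' := Nat.mul_pos hr₁.pos hr₁'.pos
  have hm₂pos : 0 < r₂ * r₂' := Nat.mul_pos hr₂.pos hr₂'.pos
  -- the roots of unity
  have hζ₁ : IsPrimitiveRoot (ζ ^ (r₂ * r₂')) (r₁ * r₁') := hζ.pow hmpos (by rw [hm, mul_comm])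
  have hζ₂ : IsPrimitiveRoot (ζ ^ (r₁ * r₁')) (r₂ * r₂') := hζ.pow hmpos hm
  have hζ₁m : (ζ ^ (r₂ * r₂')) ^ m = 1 := by
    rw [← pow_mul, mul_comm, pow_mul, hζ.pow_eq_one, one_pow]
  have hζ₂m : (ζ ^ (r₁ * r₁')) ^ m = 1 := by
    rw [← pow_mul, mul_comm, pow_mul, hζ.pow_eq_one, one_pow]
  -- orders
  have hcard : Nat.card Gal(L/K) = p := by
    rw [IsGalois.card_aut_eq_finrank, hdeg]
  have hσp : ∀ σ : Gal(L/K), σ ^ p = 1 := fun σ => by rw [← hcard]; exact pow_card_eq_one'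
  -- the Frobenius elements of `Ω/K`
  have hres₁ : AlgEquiv.restrictNormalHom L (frob K Ω 𝔭₁) = frob K L 𝔭₁ :=
    FrobTower.restrictNormalHom_frob K L Ω 𝔭₁ h𝔭₁
      (FrobTower.isUnramifiedAbove_of_everywhere hunr 𝔭₁ h𝔭₁)
  have hres₂ : AlgEquiv.restrictNormalHom L (frob K Ω 𝔭₂) = frob K L 𝔭₂ :=
    FrobTower.restrictNormalHom_frob K L Ω 𝔭₂ h𝔭₂
      (FrobTower.isUnramifiedAbove_of_everywhere hunr 𝔭₂ h𝔭₂)
  have hg₁ : frob K Ω 𝔭₁ ∈ auxSubgroup L (frob K L 𝔭₁) (Ideal.absNorm 𝔭₁) (ζ ^ (r₂ * r₂')) :=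
    ⟨1, by rw [pow_one]; exact hres₁,
      by rw [pow_one]; exact frob_apply_of_pow_eq_one K Ω 𝔭₁ h𝔭₁ hm₁ hζ₁m⟩
  have hg₂ : frob K Ω 𝔭₂ ∈ auxSubgroup L (frob K L 𝔭₂) (Ideal.absNorm 𝔭₂) (ζ ^ (r₁ * r₁')) :=
    ⟨1, by rw [pow_one]; exact hres₂,
      by rw [pow_one]; exact frob_apply_of_pow_eq_one K Ω 𝔭₂ h𝔭₂ hm₂ hζ₂m⟩
  -- the auxiliary fields
  set H₁ := auxSubgroup L (frob K L 𝔭₁) (Ideal.absNorm 𝔭₁) (ζ ^ (r₂ * r₂')) with hH₁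
  set H₂ := auxSubgroup L (frob K L 𝔭₂) (Ideal.absNorm 𝔭₂) (ζ ^ (r₁ * r₁')) with hH₂
  set F₁ : IntermediateField K Ω := fixedField H₁ with hF₁
  set F₂ : IntermediateField K Ω := fixedField H₂ with hF₂
  have hfix₁ : F₁.fixingSubgroup = H₁ := fixingSubgroup_fixedField _
  have hfix₂ : F₂.fixingSubgroup = H₂ := fixingSubgroup_fixedField _
  -- they are good
  have hgood₁ : IsGoodField K L F₁ (r₁ * r₁') := by
    refine isGoodField_fixedField L hp hp2 hdeg hunr F₁ hr₁ hr₁' hne₁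
      (hζ₁.pow hm₁pos (mul_comm r₁ r₁')) (hζ₁.pow hm₁pos rfl) ?_ ?_ ⟨frob K Ω 𝔭₁, ?_, ?_⟩
    · intro h hh hfix
      rw [hfix₁] at hh
      exact restrictNormalHom_eq_one_of_mem_auxSubgroup (hσp _)
        (hζ₁.pow hm₁pos (mul_comm r₁ r₁')) hr₁.one_lt hk₁ ho₁ hh hfix
    · intro h hh hfix
      rw [hfix₁] at hh
      exact restrictNormalHom_eq_one_of_mem_auxSubgroup (hσp _)
        (hζ₁.pow hm₁pos rfl) hr₁'.one_lt hk₁' ho₁' hh hfix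
    · rw [hfix₁]; exact hg₁
    · rw [hres₁]; exact hσ₁
  have hgood₂ : IsGoodField K L F₂ (r₂ * r₂') := by
    refine isGoodField_fixedField L hp hp2 hdeg hunr F₂ hr₂ hr₂' hne₂
      (hζ₂.pow hm₂pos (mul_comm r₂ r₂')) (hζ₂.pow hm₂pos rfl) ?_ ?_ ⟨frob K Ω 𝔭₂, ?_, ?_⟩
    · intro h hh hfix
      rw [hfix₂] at hh
      exact restrictNormalHom_eq_one_of_mem_auxSubgroup (hσp _)
        (hζ₂.pow hm₂pos (mul_comm r₂ r₂')) hr₂.one_lt hk₂ ho₂ hh hfix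
    · intro h hh hfix
      rw [hfix₂] at hh
      exact restrictNormalHom_eq_one_of_mem_auxSubgroup (hσp _)
        (hζ₂.pow hm₂pos rfl) hr₂'.one_lt hk₂' ho₂' hh hfix
    · rw [hfix₂]; exact hg₂
    · rw [hres₂]; exact hσ₂
  -- the common element
  obtain ⟨c, hcmod₁, hcmod₂⟩ := Nat.chineseRemainder hcop (Ideal.absNorm 𝔭₁ ^ d)
    (Ideal.absNorm 𝔭₂)
  have hcm : Nat.Coprime c m := by
    rw [hm]
    refine Nat.Coprime.mul_right ?_ ?_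
    · have := hcmod₁.gcd_eq
      unfold Nat.Coprime
      rw [this]
      exact Nat.Coprime.pow_left d hc₁
    · have := hcmod₂.gcd_eq
      unfold Nat.Coprime
      rw [this]
      exact hc₂
  obtain ⟨g, hgL, hgζ⟩ := hsurj (frob K L 𝔭₂) c hcm
  have hgH₁ : g ∈ H₁ := by
    refine ⟨d, hgL.trans hd, ?_⟩
    rw [map_pow, hgζ, ← pow_mul, mul_comm, pow_mul]
    exact pow_eq_pow_of_modEq' hζ₁.pow_eq_one hcmod₁
  have hgH₂ : g ∈ H₂ := by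
    refine ⟨1, by rw [pow_one]; exact hgL, ?_⟩
    rw [map_pow, hgζ, ← pow_mul, mul_comm, pow_mul, pow_one]
    exact pow_eq_pow_of_modEq' hζ₂.pow_eq_one hcmod₂
  -- the compositum of the auxiliary fields
  set F₁₂ : IntermediateField K Ω := fixedField (H₁ ⊓ H₂) with hF₁₂
  have hfix₁₂ : F₁₂.fixingSubgroup = H₁ ⊓ H₂ := fixingSubgroup_fixedField _
  have hle₁ : F₁ ≤ F₁₂ := fixedField_antitone inf_le_left
  have hle₂ : F₂ ≤ F₁₂ := fixedField_antitone inf_le_right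
  letI : Algebra F₁ F₁₂ := (IntermediateField.inclusion hle₁).toRingHom.toAlgebra
  letI : Algebra F₂ F₁₂ := (IntermediateField.inclusion hle₂).toRingHom.toAlgebra
  haveI : IsScalarTower K F₁ F₁₂ :=
    IsScalarTower.of_algebraMap_eq fun x => ((IntermediateField.inclusion hle₁).commutes x).symm
  haveI : IsScalarTower K F₂ F₁₂ :=
    IsScalarTower.of_algebraMap_eq fun x => ((IntermediateField.inclusion hle₂).commutes x).symm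
  -- the prime of `F₁₂`
  obtain ⟨𝔅, h𝔅prime, h𝔅0, h𝔅m, h𝔅⟩ := exists_prime_artin_relNorm_ne_one L hp hdeg hunr F₁₂
    ⟨g, by rw [hfix₁₂]; exact ⟨hgH₁, hgH₂⟩, by rw [hgL]; exact hσ₂⟩ m hm0
  haveI := h𝔅prime
  -- the degree one primes
  obtain ⟨𝔓₁, h𝔓₁0, h𝔓₁c, h𝔓₁N⟩ := exists_relNorm_eq_of_frob_mem F₁ 𝔭₁ h𝔭₁
    (by rw [hfix₁]; exact hg₁) m hm₁
  obtain ⟨𝔓₂, h𝔓₂0, h𝔓₂c, h𝔓₂N⟩ := exists_relNorm_eq_of_frob_mem F₂ 𝔭₂ h𝔭₂
    (by rw [hfix₂]; exact hg₂) m hm₂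
  refine pair_step hp hdeg F₁ F₂ F₁₂ (n := m) (hgood₁.mono ⟨r₂ * r₂', hm⟩)
    (hgood₂.mono ⟨r₁ * r₁', by rw [hm, mul_comm]⟩) h𝔓₁0 h𝔓₁c h𝔓₁N h𝔓₂0 h𝔓₂c h𝔓₂N h𝔅0
    (isCoprime_relNorm_of_isPrime F₁ F₁₂ 𝔅 h𝔅0 m h𝔅m)
    (isCoprime_relNorm_of_isPrime F₂ F₁₂ 𝔅 h𝔅0 m h𝔅m) h𝔅 d ?_
  rw [artin_of_isPrime K L 𝔭₁ h𝔭₁, artin_of_isPrime K L 𝔭₂ h𝔭₂, hd]

end Main

end Fermat.Agent.S14.Cross
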