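import Fermat.Agent.S14.Cross.Pair
import Fermat.Agent.S14.CrossGal
import Fermat.Agent.S14.ArtinLemma

/-!
# S14, piece RECIP: Artin reciprocity for the unramified cyclic extension `L/K`, `K = ℚ(ζ_p)`

Given the first inequality `normClasses K L ≠ ⊤`, principal ideals of `K` have trivial Artin symbol
in `L/K`.
-/

set_option autoImplicit false

open NumberField IntermediateField

namespace Fermat.Agent.S14.Cross

section Aux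

/-- a natural number prime to the norm of a prime ideal is not in it -/
theorem natCast_notMem_of_coprime_absNorm {K : Type*} [Field K] [NumberField K]
    (𝔭 : Ideal (𝓞 K)) [𝔭.IsPrime] {m : ℕ} (h : Nat.Coprime m (Ideal.absNorm 𝔭)) :
    (m : 𝓞 K) ∉ 𝔭 := by
  intro hm
  have h1 : ((Ideal.absNorm 𝔭 : ℕ) : 𝓞 K) ∈ 𝔭 := by
    have := Ideal.absNorm_mem 𝔭
    exact_mod_cast this
  have h2 : ((Nat.gcd m (Ideal.absNorm 𝔭) : ℕ) : 𝓞 K) ∈ 𝔭 := by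
    have hb := Nat.gcd_eq_gcd_ab m (Ideal.absNorm 𝔭)
    have : ((Nat.gcd m (Ideal.absNorm 𝔭) : ℕ) : 𝓞 K) =
        (m : 𝓞 K) * ((Nat.gcdA m (Ideal.absNorm 𝔭) : ℤ) : 𝓞 K) +
          ((Ideal.absNorm 𝔭 : ℕ) : 𝓞 K) * ((Nat.gcdB m (Ideal.absNorm 𝔭) : ℤ) : 𝓞 K) := by
      have := congrArg (fun z : ℤ => (z : 𝓞 K)) hb
      push_cast at this
      exact this
    rw [this]
    exact 𝔭.add_mem (𝔭.mul_mem_right _ hm) (𝔭.mul_mem_right _ h1)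
  rw [h, Nat.cast_one] at h2
  exact (Ideal.IsPrime.ne_top inferInstance) ((Ideal.eq_top_iff_one 𝔭).mpr h2)

end Aux

section Recip

variable (p : ℕ) [Fact p.Prime] (L : Type*) [Field L] [NumberField L] [IsGalois ℚ L]
  (K : IntermediateField ℚ L) [IsCyclotomicExtension {p} ℚ K]

/-- **The pair property** for `K = ℚ(ζ_p)`. -/
theorem qClass_eq_pow_of_frob (hp2 : p ≠ 2) [IsAbelianGalois K L]
    (hdeg : Module.finrank K L = p) (hunr : IsUnramifiedEverywhere K L)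
    (hact : ConjActsByInvCyclo p L K)
    (𝔭₁ 𝔭₂ : Ideal (𝓞 K)) [𝔭₁.IsPrime] [𝔭₂.IsPrime] (h𝔭₁ : 𝔭₁ ≠ ⊥) (h𝔭₂ : 𝔭₂ ≠ ⊥)
    (hσ₁ : frob K L 𝔭₁ ≠ 1) (hσ₂ : frob K L 𝔭₂ ≠ 1) (d : ℕ)
    (hd : frob K L 𝔭₂ = frob K L 𝔭₁ ^ d) :
    qClass K L 𝔭₂ = qClass K L 𝔭₁ ^ d := by
  have hp : p.Prime := Fact.out
  have ha₁ : 1 < Ideal.absNorm 𝔭₁ := one_lt_absNorm_of_isPrime K 𝔭₁ h𝔭₁
  have ha₂ : 1 < Ideal.absNorm 𝔭₂ := one_lt_absNorm_of_isPrime K 𝔭₂ h𝔭₂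
  have ha₁0 : Ideal.absNorm 𝔭₁ ≠ 0 := by omega
  have ha₂0 : Ideal.absNorm 𝔭₂ ≠ 0 := by omega
  -- the bad set
  set B₁ : Finset ℕ := {p} ∪ (Ideal.absNorm 𝔭₁ * Ideal.absNorm 𝔭₂).primeFactors with hB₁
  obtain ⟨r₁, r₁', hr₁, hr₁', hne₁, hr₁B, hr₁'B, hr₁a, hr₁'a, k₁, k₁', hk₁, hk₁', ho₁, ho₁'⟩ :=
    artin_lemma hp ha₁ B₁
  obtain ⟨r₂, r₂', hr₂, hr₂', hne₂, hr₂B, hr₂'B, hr₂a, hr₂'a, k₂, k₂', hk₂, hk₂', ho₂, ho₂'⟩ :=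
    artin_lemma hp ha₂ (B₁ ∪ {r₁, r₁'})
  have hk₁'1 : 1 ≤ k₁' := hk₁.trans hk₁'
  have hk₂'1 : 1 ≤ k₂' := hk₂.trans hk₂'
  -- consequences of avoiding the bad set
  have hnotB : ∀ r : ℕ, r.Prime → r ∉ B₁ →
      r ≠ p ∧ ¬ r ∣ Ideal.absNorm 𝔭₁ ∧ ¬ r ∣ Ideal.absNorm 𝔭₂ := by
    intro r hr hrB
    rw [hB₁, Finset.mem_union, Finset.mem_singleton, not_or] at hrB
    refine ⟨hrB.1, fun h => hrB.2 ?_, fun h => hrB.2 ?_⟩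
    · exact Nat.mem_primeFactors.mpr ⟨hr, h.mul_right _, Nat.mul_ne_zero ha₁0 ha₂0⟩
    · exact Nat.mem_primeFactors.mpr ⟨hr, h.mul_left _, Nat.mul_ne_zero ha₁0 ha₂0⟩
  have hr₂B₁ : r₂ ∉ B₁ := fun h => hr₂B (Finset.mem_union_left _ h)
  have hr₂'B₁ : r₂' ∉ B₁ := fun h => hr₂'B (Finset.mem_union_left _ h)
  have hr₂ne : r₂ ≠ r₁ ∧ r₂ ≠ r₁' := by
    constructor
    · rintro rfl; exact hr₂B (Finset.mem_union_right _ (by simp))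
    · rintro rfl; exact hr₂B (Finset.mem_union_right _ (by simp))
  have hr₂'ne : r₂' ≠ r₁ ∧ r₂' ≠ r₁' := by
    constructor
    · rintro rfl; exact hr₂'B (Finset.mem_union_right _ (by simp))
    · rintro rfl; exact hr₂'B (Finset.mem_union_right _ (by simp))
  obtain ⟨hr₁p, hr₁a₁, hr₁a₂⟩ := hnotB r₁ hr₁ hr₁B
  obtain ⟨hr₁'p, hr₁'a₁, hr₁'a₂⟩ := hnotB r₁' hr₁' hr₁'B
  obtain ⟨hr₂p, hr₂a₁, hr₂a₂⟩ := hnotB r₂ hr₂ hr₂B₁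
  obtain ⟨hr₂'p, hr₂'a₁, hr₂'a₂⟩ := hnotB r₂' hr₂' hr₂'B₁
  -- the modulus
  set m : ℕ := (r₁ * r₁') * (r₂ * r₂') with hm
  have hm0 : m ≠ 0 := by
    rw [hm]
    exact Nat.mul_ne_zero (Nat.mul_ne_zero hr₁.ne_zero hr₁'.ne_zero)
      (Nat.mul_ne_zero hr₂.ne_zero hr₂'.ne_zero)
  haveI : NeZero m := ⟨hm0⟩
  have hcop : Nat.Coprime (r₁ * r₁') (r₂ * r₂') := by
    refine Nat.Coprime.mul_left (Nat.Coprime.mul_right ?_ ?_) (Nat.Coprime.mul_right ?_ ?_)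
    · exact (Nat.coprime_primes hr₁ hr₂).mpr hr₂ne.1.symm
    · exact (Nat.coprime_primes hr₁ hr₂').mpr hr₂'ne.1.symm
    · exact (Nat.coprime_primes hr₁' hr₂).mpr hr₂ne.2.symm
    · exact (Nat.coprime_primes hr₁' hr₂').mpr hr₂'ne.2.symm
  have hpm : Nat.Coprime p m := by
    rw [hm]
    refine Nat.Coprime.mul_right (Nat.Coprime.mul_right ?_ ?_) (Nat.Coprime.mul_right ?_ ?_)
    · exact (Nat.coprime_primes hp hr₁).mpr hr₁p.symm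
    · exact (Nat.coprime_primes hp hr₁').mpr hr₁'p.symm
    · exact (Nat.coprime_primes hp hr₂).mpr hr₂p.symm
    · exact (Nat.coprime_primes hp hr₂').mpr hr₂'p.symm
  have hcopr : ∀ {r a : ℕ}, r.Prime → ¬ r ∣ a → Nat.Coprime r a :=
    fun hr h => (Nat.Prime.coprime_iff_not_dvd hr).mpr h
  have hma₁ : Nat.Coprime m (Ideal.absNorm 𝔭₁) := by
    rw [hm]
    exact Nat.Coprime.mul_left
      (Nat.Coprime.mul_left (hcopr hr₁ hr₁a₁) (hcopr hr₁' hr₁'a₁))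
      (Nat.Coprime.mul_left (hcopr hr₂ hr₂a₁) (hcopr hr₂' hr₂'a₁))
  have hma₂ : Nat.Coprime m (Ideal.absNorm 𝔭₂) := by
    rw [hm]
    exact Nat.Coprime.mul_left
      (Nat.Coprime.mul_left (hcopr hr₁ hr₁a₂) (hcopr hr₁' hr₁'a₂))
      (Nat.Coprime.mul_left (hcopr hr₂ hr₂a₂) (hcopr hr₂' hr₂'a₂))
  have hc₁ : Nat.Coprime (Ideal.absNorm 𝔭₁) (r₁ * r₁') :=
    (Nat.Coprime.mul_left (hcopr hr₁ hr₁a₁) (hcopr hr₁' hr₁'a₁)).symm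
  have hc₂ : Nat.Coprime (Ideal.absNorm 𝔭₂) (r₂ * r₂') :=
    (Nat.Coprime.mul_left (hcopr hr₂ hr₂a₂) (hcopr hr₂' hr₂'a₂)).symm
  -- the cyclotomic overfield
  let Ω := CyclotomicField m L
  haveI : NumberField Ω := IsCyclotomicExtension.numberField {m} L Ω
  haveI : IsAbelianGalois K Ω := isAbelianGalois_cyclo L K m Ω
  have hζ : IsPrimitiveRoot (IsCyclotomicExtension.zeta m L Ω) m :=
    IsCyclotomicExtension.zeta_spec m L Ω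
  -- surjectivity
  have hsurj : ∀ (s : Gal(L/K)) (c : ℕ), Nat.Coprime c m →
      ∃ g : Gal(Ω/K), AlgEquiv.restrictNormalHom L g = s ∧
        g (IsCyclotomicExtension.zeta m L Ω) = IsCyclotomicExtension.zeta m L Ω ^ c := by
    intro s c hc
    obtain ⟨g, hg1, hg2⟩ := exists_gal_cyclo p L K m Ω hp2 hpm hact hζ s (ZMod.unitOfCoprime c hc)
    refine ⟨g, hg1, ?_⟩
    rw [hg2, ZMod.coe_unitOfCoprime, ZMod.val_natCast]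
    exact (pow_eq_pow_mod c hζ.pow_eq_one).symm
  exact qClass_eq_pow_of_cyclo (Ω := Ω) L hp hp2 hdeg hunr hζ hsurj h𝔭₁ h𝔭₂ hr₁ hr₁' hr₂ hr₂' hne₁
    hne₂ hcop hm hk₁ hk₁'1 hk₂ hk₂'1 ho₁ ho₁' ho₂ ho₂' hc₁ hc₂
    (natCast_notMem_of_coprime_absNorm 𝔭₁ hma₁) (natCast_notMem_of_coprime_absNorm 𝔭₂ hma₂)
    hσ₁ hσ₂ d hd

/-- **RECIP**, with the first inequality as a hypothesis. -/
theorem artin_span_singleton_eq_one_of_first (hp2 : p ≠ 2) [IsAbelianGalois K L]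
    (hdeg : Module.finrank K L = p) (hunr : IsUnramifiedEverywhere K L)
    (hact : ConjActsByInvCyclo p L K) (hfirst : normClasses K L ≠ ⊤) (β : 𝓞 K) :
    artin K L (Ideal.span {β}) = 1 := by
  have hp : p.Prime := Fact.out
  by_cases hβ : β = 0
  · rw [hβ, Ideal.span_singleton_eq_bot.mpr rfl, artin_bot]
  refine artin_span_singleton_eq_one_of_pairs hp hdeg hunr hfirst ?_ β hβ
  intro 𝔭₁ 𝔭₂ h𝔭₁ h𝔭₁0 h𝔭₂ h𝔭₂0 hσ₁ hσ₂ d hd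
  exact qClass_eq_pow_of_frob p L K hp2 hdeg hunr hact 𝔭₁ 𝔭₂ h𝔭₁0 h𝔭₂0 hσ₁ hσ₂ d hd

end Recip

end Fermat.Agent.S14.Cross
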